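/-
TW1: the setting for choosing Taylor-Wiles primes: the trace-zero matrices twisted by the determinant,
their cocycles, and the hypotheses on a residual representation given by matrices.
-/
import Fermat.Prelude.Def_GaloisRep_LocalConditions
import Fermat.Prelude.Def_GaloisRep_Residual
import Mathlib.LinearAlgebra.Matrix.Charpoly.Coeff
import Mathlib.FieldTheory.IsAlgClosed.AlgebraicClosure

set_option autoImplicit false

noncomputable section

open Matrix Polynomial

namespace Fermat.Agent.TW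

variable {G : Type*} [Group G] {k : Type*} [Field k]

/-- The action on matrices by conjugation, twisted by the determinant. -/
def adAct (R : G →* Matrix (Fin 2) (Fin 2) k) (σ : G) (x : Matrix (Fin 2) (Fin 2) k) :
    Matrix (Fin 2) (Fin 2) k :=
  (R σ).det • (R σ * x * R σ⁻¹)

/-- A cocycle with values in the trace-zero matrices. -/
structure IsTwCocycle (R : G →* Matrix (Fin 2) (Fin 2) k) (ψ : G → Matrix (Fin 2) (Fin 2) k) :
    Prop where
  trace_eq_zero : ∀ σ, (ψ σ).trace = 0
  map_mul : ∀ σ τ, ψ (σ * τ) = ψ σ + adAct R σ (ψ τ)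

/-- A coboundary of a trace-zero matrix. -/
def IsTwCoboundary (R : G →* Matrix (Fin 2) (Fin 2) k) (ψ : G → Matrix (Fin 2) (Fin 2) k) : Prop :=
  ∃ m : Matrix (Fin 2) (Fin 2) k, m.trace = 0 ∧ ∀ σ, ψ σ = adAct R σ m - m

/-- The hypotheses on the residual representation. -/
structure TWHyp (p : ℕ) {k : Type} [Field k]
    (R : (AlgebraicClosure ℚ ≃ₐ[ℚ] AlgebraicClosure ℚ) →* Matrix (Fin 2) (Fin 2) k) : Prop where
  odd : p ≠ 2
  finite_level : GaloisFactorsThroughFiniteLevel R
  det_cyclotomic : ∀ (σ : AlgebraicClosure ℚ ≃ₐ[ℚ] AlgebraicClosure ℚ) (a : ℕ),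
    (∀ μ : AlgebraicClosure ℚ, μ ^ p = 1 → σ μ = μ ^ a) → (R σ).det = (a : k)
  split : ∀ σ, ∃ α β : k, (R σ).charpoly = (X - C α) * (X - C β)
  irreducible : ∀ H : Subgroup (AlgebraicClosure ℚ ≃ₐ[ℚ] AlgebraicClosure ℚ),
    H = ⊤ ∨ H.index = 2 → ∀ v : Fin 2 → AlgebraicClosure k,
      (∀ σ ∈ H, ∃ c : AlgebraicClosure k,
        ((R σ).map (algebraMap k (AlgebraicClosure k))) *ᵥ v = c • v) → v = 0

end Fermat.Agent.TW
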