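/-
TW1: elementary facts on two-by-two matrices and on the twisted conjugation action.
-/
import Fermat.Agent.TW.Defs
import Mathlib.LinearAlgebra.Matrix.ToLinearEquiv
import Mathlib.LinearAlgebra.Matrix.Trace
import Mathlib.Tactic.LinearCombination

set_option autoImplicit false
set_option linter.unusedSectionVars false

noncomputable section

open Matrix Polynomial

namespace Fermat.Agent.TW

variable {k : Type*} [Field k] {G : Type*} [Group G] (R : G →* Matrix (Fin 2) (Fin 2) k)

theorem rep_mul_inv (σ : G) : R σ * R σ⁻¹ = 1 := by rw [← map_mul, mul_inv_cancel, map_one]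

theorem rep_inv_mul (σ : G) : R σ⁻¹ * R σ = 1 := by rw [← map_mul, inv_mul_cancel, map_one]

theorem det_rep_mul_inv (σ : G) : (R σ).det * (R σ⁻¹).det = 1 := by
  rw [← Matrix.det_mul, rep_mul_inv, Matrix.det_one]

theorem det_rep_ne_zero (σ : G) : (R σ).det ≠ 0 := fun h => by
  simpa [h] using det_rep_mul_inv R σ

theorem adAct_zero (σ : G) : adAct R σ 0 = 0 := by simp [adAct]

theorem adAct_add (σ : G) (x y : Matrix (Fin 2) (Fin 2) k) :
    adAct R σ (x + y) = adAct R σ x + adAct R σ y := by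
  simp only [adAct, mul_add, add_mul, smul_add]

theorem adAct_sub (σ : G) (x y : Matrix (Fin 2) (Fin 2) k) :
    adAct R σ (x - y) = adAct R σ x - adAct R σ y := by
  simp only [adAct, mul_sub, sub_mul, smul_sub]

theorem adAct_smul (σ : G) (a : k) (x : Matrix (Fin 2) (Fin 2) k) :
    adAct R σ (a • x) = a • adAct R σ x := by
  simp only [adAct, Matrix.mul_smul, Matrix.smul_mul, smul_smul, mul_comm]

theorem adAct_one (x : Matrix (Fin 2) (Fin 2) k) : adAct R 1 x = x := by simp [adAct]

theorem adAct_mul (σ τ : G) (x : Matrix (Fin 2) (Fin 2) k) :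
    adAct R (σ * τ) x = adAct R σ (adAct R τ x) := by
  simp only [adAct, map_mul, _root_.mul_inv_rev, Matrix.det_mul, Matrix.mul_smul, Matrix.smul_mul,
    smul_smul, mul_assoc]

theorem trace_adAct (σ : G) (x : Matrix (Fin 2) (Fin 2) k) :
    (adAct R σ x).trace = (R σ).det * x.trace := by
  rw [adAct, Matrix.trace_smul, Matrix.trace_mul_cycle, rep_inv_mul, one_mul, smul_eq_mul]

theorem adAct_mul_comm (σ : G) (x : Matrix (Fin 2) (Fin 2) k) :
    adAct R σ x * R σ = (R σ).det • (R σ * x) := by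
  rw [adAct, Matrix.smul_mul, mul_assoc, rep_inv_mul, mul_one]

theorem adAct_eq_adjugate (σ : G) (x : Matrix (Fin 2) (Fin 2) k) :
    adAct R σ x = R σ * x * (R σ).adjugate := by
  have h : (R σ).adjugate = (R σ).det • R σ⁻¹ := by
    have := congrArg (fun A => (R σ).adjugate * A) (rep_mul_inv R σ)
    simp only [← mul_assoc, Matrix.adjugate_mul, Matrix.smul_mul, one_mul, mul_one] at this
    exact this.symm
  rw [adAct, h, Matrix.mul_smul]

theorem trace_adAct_sub_mul {σ : G} (hdet : (R σ).det = 1) (m : Matrix (Fin 2) (Fin 2) k) :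
    ((adAct R σ m - m) * R σ).trace = 0 := by
  rw [sub_mul, Matrix.trace_sub, adAct_mul_comm, hdet, one_smul, Matrix.trace_mul_comm, sub_self]

namespace IsTwCocycle

variable {R} {ψ : G → Matrix (Fin 2) (Fin 2) k} (hψ : IsTwCocycle R ψ)

include hψ

theorem map_one : ψ 1 = 0 := by
  have h := hψ.map_mul 1 1
  rw [one_mul, adAct_one] at h
  exact left_eq_add.mp h

theorem map_inv (σ : G) : adAct R σ (ψ σ⁻¹) = -ψ σ := by
  have h := hψ.map_mul σ σ⁻¹
  rw [mul_inv_cancel, hψ.map_one] at h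
  exact (eq_neg_of_add_eq_zero_right h.symm)

theorem map_conj_of_trivial {σ τ : G} (hτ : ∀ x, adAct R (σ * τ * σ⁻¹) x = x) :
    ψ (σ * τ * σ⁻¹) = adAct R σ (ψ τ) := by
  have h := hψ.map_mul (σ * τ * σ⁻¹) σ
  rw [show σ * τ * σ⁻¹ * σ = σ * τ by group, hψ.map_mul, hτ] at h
  exact add_right_cancel ((add_comm _ _).trans h).symm

theorem sub {φ : G → Matrix (Fin 2) (Fin 2) k} (hφ : IsTwCocycle R φ) :
    IsTwCocycle R fun σ => ψ σ - φ σ where
  trace_eq_zero σ := by rw [Matrix.trace_sub, hψ.trace_eq_zero, hφ.trace_eq_zero, sub_zero]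
  map_mul σ τ := by rw [hψ.map_mul, hφ.map_mul, adAct_sub]; abel

end IsTwCocycle

/-- The coboundary of a trace-zero matrix. -/
def coboundary (m : Matrix (Fin 2) (Fin 2) k) : G → Matrix (Fin 2) (Fin 2) k :=
  fun σ => adAct R σ m - m

theorem isTwCocycle_coboundary {m : Matrix (Fin 2) (Fin 2) k} (hm : m.trace = 0) :
    IsTwCocycle R (coboundary R m) where
  trace_eq_zero σ := by rw [coboundary, Matrix.trace_sub, trace_adAct, hm, mul_zero, sub_zero]
  map_mul σ τ := by simp only [coboundary, adAct_mul, adAct_sub]; abel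

theorem isTwCoboundary_of_sub {ψ : G → Matrix (Fin 2) (Fin 2) k} {m : Matrix (Fin 2) (Fin 2) k}
    (hm : m.trace = 0) (h : IsTwCoboundary R fun σ => ψ σ - coboundary R m σ) :
    IsTwCoboundary R ψ := by
  obtain ⟨m', hm', h'⟩ := h
  refine ⟨m' + m, by rw [Matrix.trace_add, hm', hm, add_zero], fun σ => ?_⟩
  have := h' σ
  simp only [coboundary, sub_eq_iff_eq_add] at this
  rw [this, adAct_add]
  abel

/-- An eigenvalue in the field gives an eigenvector. -/
theorem exists_eigenvector {A : Matrix (Fin 2) (Fin 2) k} {α β : k}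
    (h : A.charpoly = (X - C α) * (X - C β)) : ∃ v ≠ 0, A *ᵥ v = α • v := by
  have h0 : (scalar (Fin 2) α - A).det = 0 := by
    rw [← Matrix.eval_charpoly, h]
    simp
  obtain ⟨v, hv, he⟩ := Matrix.exists_mulVec_eq_zero_iff.mpr h0
  refine ⟨v, hv, ?_⟩
  rw [Matrix.sub_mulVec, sub_eq_zero] at he
  rw [← he]
  ext i
  simp [Matrix.mulVec_diagonal]

/-- An eigenvalue is a root of the characteristic polynomial. -/
theorem quadratic_of_eigenvector {A : Matrix (Fin 2) (Fin 2) k} {γ : k} {v : Fin 2 → k}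
    (hv : v ≠ 0) (h : A *ᵥ v = γ • v) : γ ^ 2 - A.trace * γ + A.det = 0 := by
  have h0 : (scalar (Fin 2) γ - A).det = 0 := by
    refine Matrix.exists_mulVec_eq_zero_iff.mp ⟨v, hv, ?_⟩
    rw [Matrix.sub_mulVec, h, sub_eq_zero]
    ext i
    simp [Matrix.mulVec_diagonal]
  rw [← Matrix.eval_charpoly, Matrix.charpoly_fin_two] at h0
  simpa using h0

/-- A matrix with two independent eigenvectors for one eigenvalue is scalar. -/
theorem eq_scalar_of_eigen {A : Matrix (Fin 2) (Fin 2) k} {γ : k} {v w : Fin 2 → k}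
    (hvw : v 0 * w 1 - v 1 * w 0 ≠ 0) (hv : A *ᵥ v = γ • v) (hw : A *ᵥ w = γ • w) :
    A = γ • 1 := by
  have e : ∀ (u : Fin 2 → k) i, A *ᵥ u = γ • u → A i 0 * u 0 + A i 1 * u 1 = γ * u i := by
    intro u i hu
    have := congrFun hu i
    simpa [Matrix.mulVec, dotProduct, Fin.sum_univ_two] using this
  have h1 := e v 0 hv
  have h2 := e w 0 hw
  have h3 := e v 1 hv
  have h4 := e w 1 hw
  ext i j
  fin_cases i <;> fin_cases j <;> simp <;> refine mul_left_cancel₀ hvw ?_
  · linear_combination w 1 * h1 - v 1 * h2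
  · linear_combination v 0 * h2 - w 0 * h1
  · linear_combination w 1 * h3 - v 1 * h4
  · linear_combination v 0 * h4 - w 0 * h3

/-- Two nonzero vectors with vanishing determinant are proportional. -/
theorem exists_smul_eq_of_cross {v w : Fin 2 → k} (hv : v ≠ 0) (hw : w ≠ 0)
    (h : v 0 * w 1 - v 1 * w 0 = 0) : ∃ a : k, a ≠ 0 ∧ a • v = w := by
  by_cases h0 : v 0 = 0
  · have h1 : v 1 ≠ 0 := fun h1 => hv (funext fun i => by fin_cases i <;> simp [h0, h1])
    have w0 : w 0 = 0 := by
      rw [h0] at h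
      simpa [h1] using h
    have w1 : w 1 ≠ 0 := fun w1 => hw (funext fun i => by fin_cases i <;> simp [w0, w1])
    exact ⟨w 1 / v 1, div_ne_zero w1 h1, funext fun i => by fin_cases i <;> simp [h0, w0, h1]⟩
  · have w0 : w 0 ≠ 0 := fun w0 => by
      rw [w0] at h
      have w1 : w 1 = 0 := by simpa [h0] using h
      exact hw (funext fun i => by fin_cases i <;> simp [w0, w1])
    refine ⟨w 0 / v 0, div_ne_zero w0 h0, funext fun i => ?_⟩
    fin_cases i
    · simp [h0]
    · simp only [Pi.smul_apply, smul_eq_mul, Fin.mk_one]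
      rw [div_mul_eq_mul_div, div_eq_iff h0]
      linear_combination -h

/-- For a non-scalar matrix the eigenspaces are lines. -/
theorem exists_smul_eq_of_eigen {A : Matrix (Fin 2) (Fin 2) k} (hA : ∀ a : k, A ≠ a • 1) {γ : k}
    {v w : Fin 2 → k} (hv0 : v ≠ 0) (hw0 : w ≠ 0) (hv : A *ᵥ v = γ • v) (hw : A *ᵥ w = γ • w) :
    ∃ a : k, a ≠ 0 ∧ a • v = w :=
  exists_smul_eq_of_cross hv0 hw0 (by_contra fun h => hA γ (eq_scalar_of_eigen h hv hw))

theorem trace_sq_eq_iff {A : Matrix (Fin 2) (Fin 2) k} {α β : k}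
    (h : A.charpoly = (X - C α) * (X - C β)) :
    A.trace ^ 2 = 4 * A.det ↔ α = β := by
  have e := Matrix.charpoly_fin_two A
  rw [h] at e
  have e0 := congrArg (eval 0) e
  have e1 := congrArg (eval 1) e
  simp at e0 e1
  have ht : A.trace = α + β := by linear_combination e1 - e0
  rw [ht, ← e0]
  constructor
  · intro h'
    have : (α - β) ^ 2 = 0 := by linear_combination h'
    exact sub_eq_zero.mp (eq_zero_of_pow_eq_zero this)
  · rintro rfl
    ring

end Fermat.Agent.TW
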