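/-
TW1: a counting bound for a finite group acting on a projective line: the torus normalising a Sylow
subgroup of order `q` has order at least `(q - 1) / 2`.
-/
import Mathlib.GroupTheory.GroupAction.Quotient
import Mathlib.GroupTheory.Coset.Card
import Mathlib.Tactic.Linarith
import Mathlib.Tactic.Group
import Mathlib.Algebra.Order.BigOperators.Group.Finset

set_option autoImplicit false
set_option linter.style.haveILetI false

open MulAction

namespace Fermat.Agent.TW

theorem count_arith {N z q t n o s : ℕ} (hz : 0 < z) (hq : 3 ≤ q) (ht : 0 < t) (hn : 2 ≤ n)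
    (hN : N = n * (z * q * t)) (ho : o * (z * s) = N) (hoz : o = 2 + n * (q - 2)) :
    q ≤ 2 * t + 1 := by
  have hos : o * s = n * (q * t) :=
    Nat.eq_of_mul_eq_mul_left hz (by rw [hN] at ho; linarith)
  obtain ⟨r, rfl⟩ : ∃ r, q = r + 2 := ⟨q - 2, by omega⟩
  rw [Nat.add_sub_cancel] at hoz
  subst hoz
  have hst : t < s := by
    by_contra hcon
    rw [not_lt] at hcon
    have h1 : n * ((r + 2) * t) ≤ (2 + n * r) * t := hos ▸ Nat.mul_le_mul_left _ hcon
    have : n * (r + 2) * t ≤ (2 + n * r) * t := by linarith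
    have := Nat.le_of_mul_le_mul_right this ht
    nlinarith
  have h1 : (2 + n * r) * (t + 1) ≤ n * ((r + 2) * t) := hos ▸ Nat.mul_le_mul_left _ hst
  by_contra hcon
  rw [not_le] at hcon
  nlinarith [Nat.mul_le_mul_left n (show 2 * t ≤ r by omega)]

variable {S : Type*} [Group S] {Ω : Type*} [MulAction S Ω]

theorem fix_conj_iff (σ g : S) (x : Ω) : (σ * g * σ⁻¹) • σ • x = σ • x ↔ g • x = x := by
  rw [smul_smul, inv_mul_cancel_right, mul_smul, smul_left_cancel_iff]

variable [Fintype S] [Fintype Ω]

open scoped Classical in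
theorem torus_bound (x₀ : Ω) {z q t : ℕ} (Z : Subgroup S) (hz : Nat.card Z = z)
    (hZ : ∀ g, g ∈ Z ↔ ∀ x : Ω, g • x = x)
    (hfix : ∀ g, g ∉ Z → (Finset.univ.filter fun x : Ω => g • x = x).card = 1 ∨
      (Finset.univ.filter fun x : Ω => g • x = x).card = 2)
    (hone : ∀ g, g ∉ Z → (Finset.univ.filter fun x : Ω => g • x = x).card = 1 →
      ∀ x : Ω, g • x = x → x ∈ orbit S x₀)
    (hstab : Nat.card (stabilizer S x₀) = z * q * t)
    (honecard : (Finset.univ.filter fun g : S => g • x₀ = x₀ ∧ g ∉ Z ∧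
      (Finset.univ.filter fun x : Ω => g • x = x).card = 1).card = z * (q - 1))
    (hmove : ∃ g : S, g • x₀ ≠ x₀) (hq : 3 ≤ q) : q ≤ 2 * t + 1 := by
  set fx : S → ℕ := fun g => (Finset.univ.filter fun x : Ω => g • x = x).card with hfx
  set One : Finset S := Finset.univ.filter fun g => g ∉ Z ∧ fx g = 1 with hOne
  set NZ : Finset S := Finset.univ.filter fun g => g ∉ Z with hNZ
  set st : Ω → ℕ := fun x => (Finset.univ.filter fun g : S => g • x = x ∧ g ∉ Z).card with hst
  set N := Fintype.card S with hN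
  have hz0 : 0 < z := hz ▸ Nat.card_pos
  have hNZcard : NZ.card + z = N := by
    rw [hN, ← Finset.card_univ, ← Finset.card_filter_add_card_filter_not (s := Finset.univ)
      (fun g => g ∉ Z), hNZ]
    congr 1
    rw [← hz, Nat.card_eq_fintype_card, Fintype.card_subtype]
    simp
  have htot : ∑ x, st x + One.card = 2 * NZ.card := by
    have h1 : ∑ x, st x = ∑ g ∈ NZ, fx g := by
      simp only [hst, hfx, Finset.card_filter, hNZ, Finset.sum_filter]
      rw [Finset.sum_comm]
      refine Finset.sum_congr rfl fun g _ => ?_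
      by_cases hg : g ∈ Z <;> simp [hg]
    have h2 : One.card = ∑ g ∈ NZ, if fx g = 1 then 1 else 0 := by
      rw [← Finset.card_filter, hNZ, Finset.filter_filter]
    rw [h1, h2, ← Finset.sum_add_distrib, mul_comm, ← smul_eq_mul, ← Finset.sum_const]
    refine Finset.sum_congr rfl fun g hg => ?_
    rcases hfix g (Finset.mem_filter.mp hg).2 with h | h <;> simp [hfx, h]
  set O : Finset Ω := Finset.univ.filter fun x => x ∈ orbit S x₀ with hO
  have hsub : ∀ x : Ω, (Finset.univ.filter fun g : S => g • x = x ∧ g ∉ Z).card + z =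
      Nat.card (stabilizer S x) := by
    intro x
    rw [← hz, Nat.card_eq_fintype_card, Nat.card_eq_fintype_card, Fintype.card_subtype,
      Fintype.card_subtype, ← Finset.card_filter_add_card_filter_not
        (s := Finset.univ.filter fun g : S => g ∈ stabilizer S x) (fun g => g ∉ Z),
      Finset.filter_filter, Finset.filter_filter]
    congr 2
    all_goals ext g
    all_goals simp
    all_goals exact fun h => (hZ g).mp h x
  have hcardO : Nat.card (orbit S x₀) = O.card := by
    rw [Nat.card_eq_fintype_card, Fintype.card_subtype]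
  have horb : ∀ x : Ω, Nat.card (orbit S x) * Nat.card (stabilizer S x) = N := fun x => by
    rw [Nat.card_eq_fintype_card, Nat.card_eq_fintype_card,
      card_orbit_mul_card_stabilizer_eq_card_group]
  have hNn : N = O.card * (z * q * t) := by rw [← horb x₀, hstab, hcardO]
  have hn : 2 ≤ O.card := by
    obtain ⟨g, hg⟩ := hmove
    refine Finset.one_lt_card.mpr ⟨g • x₀, ?_, x₀, ?_, hg⟩ <;> simp [hO]
  -- the elements with one fixed point, sorted by it
  have hOnecard : One.card = O.card * (z * (q - 1)) := by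
    have h : One.card = ∑ x ∈ O, (One.filter fun g => g • x = x).card := by
      simp only [Finset.card_filter (p := fun g => g • _ = _)]
      rw [Finset.sum_comm, Finset.card_eq_sum_ones]
      refine Finset.sum_congr rfl fun g hg => ?_
      obtain ⟨hgZ, hg1⟩ := (Finset.mem_filter.mp hg).2
      obtain ⟨y, hy⟩ := Finset.card_eq_one.mp hg1
      have hy' : ∀ x : Ω, g • x = x ↔ x = y := fun x => by
        have := Finset.ext_iff.mp hy x
        simpa using this
      simp only [hy']
      rw [Finset.sum_ite_eq' O y, if_pos]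
      exact Finset.mem_filter.mpr ⟨Finset.mem_univ _, hone g hgZ hg1 y ((hy' y).mpr rfl)⟩
    rw [h, ← smul_eq_mul, ← Finset.sum_const]
    refine Finset.sum_congr rfl fun x hx => ?_
    obtain ⟨σ, rfl⟩ := (Finset.mem_filter.mp hx).2
    rw [← honecard]
    have hZc : ∀ g, σ * g * σ⁻¹ ∈ Z ↔ g ∈ Z := by
      intro g
      rw [hZ, hZ]
      refine ⟨fun h y => (fix_conj_iff σ g y).mp (h _), fun h y => ?_⟩
      obtain ⟨w, rfl⟩ : ∃ w, σ • w = y := ⟨σ⁻¹ • y, smul_inv_smul _ _⟩
      exact (fix_conj_iff σ g w).mpr (h w)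
    have hfc : ∀ g, fx (σ * g * σ⁻¹) = fx g := by
      intro g
      refine (Finset.card_bij (fun y _ => σ • y) ?_ ?_ ?_).symm
      · intro y hy; simpa [fix_conj_iff] using hy
      · intro a _ b _ h; exact smul_left_cancel σ h
      · intro y hy
        refine ⟨σ⁻¹ • y, ?_, smul_inv_smul _ _⟩
        rw [Finset.mem_filter] at hy ⊢
        exact ⟨Finset.mem_univ _, (fix_conj_iff σ g _).mp (by rw [smul_inv_smul]; exact hy.2)⟩
    refine (Finset.card_bij (fun g _ => σ * g * σ⁻¹) ?_ ?_ ?_).symm
    · intro g hg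
      obtain ⟨h1, h2, h3⟩ := (Finset.mem_filter.mp hg).2
      refine Finset.mem_filter.mpr ⟨Finset.mem_filter.mpr ⟨Finset.mem_univ _, ?_, ?_⟩, ?_⟩
      · rwa [hZc]
      · rw [hfc]; exact h3
      · exact (fix_conj_iff σ g x₀).mpr h1
    · intro a _ b _ h
      simpa using h
    · intro g hg
      obtain ⟨hg1, hg2⟩ := Finset.mem_filter.mp hg
      obtain ⟨h1, h2⟩ := (Finset.mem_filter.mp hg1).2
      have e : σ * (σ⁻¹ * g * σ) * σ⁻¹ = g := by group
      refine ⟨σ⁻¹ * g * σ, Finset.mem_filter.mpr ⟨Finset.mem_univ _, ?_, ?_, ?_⟩, e⟩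
      · exact (fix_conj_iff σ _ x₀).mp (by rw [e]; exact hg2)
      · rw [← hZc, e]; exact h1
      · show fx _ = 1
        rw [← hfc, e]; exact h2
  have hOsum : ∑ x ∈ O, st x + O.card * z = N := by
    rw [hNn, ← smul_eq_mul O.card z, ← Finset.sum_const, ← Finset.sum_add_distrib,
      ← smul_eq_mul O.card, ← Finset.sum_const]
    refine Finset.sum_congr rfl fun x hx => ?_
    have hx' : orbit S x = orbit S x₀ := orbit_eq_iff.mpr (Finset.mem_filter.mp hx).2
    have h2 := horb x
    rw [hx', hcardO, hNn] at h2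
    rw [hst, hsub x]
    exact Nat.eq_of_mul_eq_mul_left (by omega) h2
  set R := ∑ x ∈ Finset.univ.filter (fun x => x ∉ orbit S x₀), st x with hR
  have hsplit : ∑ x ∈ O, st x + R = ∑ x, st x :=
    Finset.sum_filter_add_sum_filter_not _ _ _
  have ht : 0 < t := by
    rcases Nat.eq_zero_or_pos t with rfl | h
    · simp at hNn
      exact absurd hNn Fintype.card_ne_zero
    · exact h
  obtain ⟨r, rfl⟩ : ∃ r, q = r + 2 := ⟨q - 2, by omega⟩
  rw [show r + 2 - 1 = r + 1 by omega] at hOnecard
  have hkey : R + 2 * z + O.card * z * r = N := by nlinarith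
  have hpos : 0 < R := by
    have h1 : O.card * z * (r + 2) ≤ N := by
      rw [hNn, mul_assoc]
      exact Nat.mul_le_mul_left _ (Nat.le_mul_of_pos_right _ ht)
    nlinarith
  obtain ⟨y, hy, hy0⟩ : ∃ y ∈ Finset.univ.filter (fun x => x ∉ orbit S x₀), st y ≠ 0 :=
    Finset.exists_ne_zero_of_sum_ne_zero hpos.ne'
  have hstab2 : ∀ x, st x ≠ 0 → ∃ s, Nat.card (stabilizer S x) = z * s ∧ 2 ≤ s := by
    intro x hx
    have hle : Z ≤ stabilizer S x := fun g hg => mem_stabilizer_iff.mpr ((hZ g).mp hg x)
    obtain ⟨s, hs⟩ := Subgroup.card_dvd_of_le hle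
    rw [hz] at hs
    refine ⟨s, hs, ?_⟩
    have := hsub x
    rw [hs] at this
    by_contra hcon
    have : z * s ≤ z * 1 := Nat.mul_le_mul_left z (by omega)
    simp only [hst] at hx
    omega
  set OY : Finset Ω := Finset.univ.filter fun x => x ∈ orbit S y with hOY
  have hdisj : ∀ x ∈ OY, x ∉ orbit S x₀ := fun x hx hx' => (Finset.mem_filter.mp hy).2 <| by
    rw [← orbit_eq_iff.mpr hx', orbit_eq_iff.mpr (Finset.mem_filter.mp hx).2]
    exact mem_orbit_self y
  have horbsum : ∀ w : Ω, ∑ x ∈ Finset.univ.filter (fun x => x ∈ orbit S w), st x +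
      (Finset.univ.filter fun x => x ∈ orbit S w).card * z = N := by
    intro w
    have hc : Nat.card (orbit S w) = (Finset.univ.filter fun x => x ∈ orbit S w).card := by
      rw [Nat.card_eq_fintype_card, Fintype.card_subtype]
    rw [← horb w, hc, ← smul_eq_mul _ z, ← Finset.sum_const, ← Finset.sum_add_distrib,
      ← smul_eq_mul _ (Nat.card (stabilizer S w)), ← Finset.sum_const]
    refine Finset.sum_congr rfl fun x hx => ?_
    rw [hst, hsub x]
    have hx' : orbit S x = orbit S w := orbit_eq_iff.mpr (Finset.mem_filter.mp hx).2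
    have h2 := horb x
    rw [hx', ← horb w] at h2
    haveI : Nonempty (orbit S w) := (nonempty_orbit w).to_subtype
    exact Nat.eq_of_mul_eq_mul_left Nat.card_pos h2
  obtain ⟨s, hs, hs2⟩ := hstab2 y hy0
  have hoy : OY.card * (z * s) = N := by
    rw [← horb y, hs, Nat.card_eq_fintype_card, Fintype.card_subtype]
  -- every other point has the smallest stabiliser
  have hrest : ∀ x, x ∉ orbit S x₀ → x ∉ orbit S y → st x = 0 := by
    intro x hx0 hxy
    by_contra hxne
    obtain ⟨s', hs', hs2'⟩ := hstab2 x hxne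
    set OX : Finset Ω := Finset.univ.filter fun w => w ∈ orbit S x with hOX
    have hox : OX.card * (z * s') = N := by
      rw [← horb x, hs', Nat.card_eq_fintype_card, Fintype.card_subtype]
    have hxy' : Disjoint OY OX := Finset.disjoint_left.mpr fun w hw hw' => hxy <| by
      rw [← orbit_eq_iff.mpr (Finset.mem_filter.mp hw).2,
        orbit_eq_iff.mpr (Finset.mem_filter.mp hw').2]
      exact mem_orbit_self x
    have hle : ∑ w ∈ OY ∪ OX, st w ≤ R := by
      refine Finset.sum_le_sum_of_subset_of_nonneg ?_ fun _ _ _ => Nat.zero_le _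
      intro w hw
      refine Finset.mem_filter.mpr ⟨Finset.mem_univ _, ?_⟩
      rcases Finset.mem_union.mp hw with hw | hw
      · exact hdisj w hw
      · intro hw'
        exact hx0 <| by
          rw [← orbit_eq_iff.mpr hw', orbit_eq_iff.mpr (Finset.mem_filter.mp hw).2]
          exact mem_orbit_self x
    rw [Finset.sum_union hxy'] at hle
    have h1 := horbsum x
    have h2 := horbsum y
    rw [← hOX] at h1
    rw [← hOY] at h2
    nlinarith [Nat.mul_le_mul_left OY.card (Nat.mul_le_mul_left z hs2),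
      Nat.mul_le_mul_left OX.card (Nat.mul_le_mul_left z hs2'), Nat.zero_le (O.card * z * r)]
  have hRy : R = ∑ x ∈ OY, st x := by
    refine (Finset.sum_subset (fun x hx => Finset.mem_filter.mpr ⟨Finset.mem_univ _, hdisj x hx⟩)
      fun x hx hx' => hrest x (Finset.mem_filter.mp hx).2 fun h => hx' ?_).symm
    exact Finset.mem_filter.mpr ⟨Finset.mem_univ _, h⟩
  have hy2 := horbsum y
  rw [← hOY, ← hRy] at hy2
  have ho : OY.card = 2 + O.card * r := Nat.eq_of_mul_eq_mul_left hz0 (by nlinarith)
  exact count_arith hz0 hq ht hn hNn hoy (by simpa using ho)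

end Fermat.Agent.TW
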