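/-
TW1: a finite group of matrices containing a fixed transvection: Sylow subgroup, Borel part and the
bound on its torus.
-/
import Fermat.Agent.TW.Algebra
import Fermat.Agent.TW.Count
import Mathlib.GroupTheory.Sylow
import Mathlib.LinearAlgebra.Projectivization.Action
import Mathlib.LinearAlgebra.Matrix.GeneralLinearGroup.Defs
import Mathlib.Algebra.CharP.Basic

set_option autoImplicit false
set_option linter.unusedSectionVars false
set_option linter.style.haveILetI false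

noncomputable section

open Matrix Polynomial MulAction
open scoped LinearAlgebra.Projectivization

namespace Fermat.Agent.TW

variable {p : ℕ} [Fact p.Prime] {k : Type*} [Field k] [CharP k p] {G : Type*} [Group G]
  (R : G →* Matrix (Fin 2) (Fin 2) k)

theorem rep_mul_apply (g g' : G) (i j : Fin 2) :
    R (g * g') i j = R g i 0 * R g' 0 j + R g i 1 * R g' 1 j := by
  rw [map_mul, Matrix.mul_apply, Fin.sum_univ_two]

theorem det_of_upper {g : G} (hg : R g 1 0 = 0) : (R g).det = R g 0 0 * R g 1 1 := by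
  rw [Matrix.det_fin_two, hg, mul_zero, sub_zero]

theorem diag_ne_zero {g : G} (hg : R g 1 0 = 0) : R g 0 0 ≠ 0 ∧ R g 1 1 ≠ 0 :=
  mul_ne_zero_iff.mp (det_of_upper R hg ▸ det_rep_ne_zero R g)

/-- The elements fixing the first coordinate line. -/
def borel : Subgroup G where
  carrier := {g | R g 1 0 = 0}
  one_mem' := by simp
  mul_mem' {g g'} hg hg' := by
    simp only [Set.mem_ofPred_eq] at hg hg' ⊢
    simp [rep_mul_apply, hg, hg']
  inv_mem' {g} hg := by
    simp only [Set.mem_ofPred_eq] at hg ⊢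
    have h := rep_mul_apply R g g⁻¹ 1 0
    rw [mul_inv_cancel, map_one, hg, Matrix.one_apply_ne (by decide), zero_mul, zero_add] at h
    exact (mul_eq_zero.mp h.symm).resolve_left (diag_ne_zero R hg).2

theorem mem_borel {g : G} : g ∈ borel R ↔ R g 1 0 = 0 := Iff.rfl

/-- The upper unipotent elements. -/
def unip : Subgroup G where
  carrier := {g | R g 1 0 = 0 ∧ R g 0 0 = 1 ∧ R g 1 1 = 1}
  one_mem' := by simp
  mul_mem' {g g'} hg hg' := by
    simp only [Set.mem_ofPred_eq] at hg hg' ⊢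
    simp [rep_mul_apply, hg, hg']
  inv_mem' {g} hg := by
    simp only [Set.mem_ofPred_eq] at hg ⊢
    have hb : R g⁻¹ 1 0 = 0 := (borel R).inv_mem hg.1
    have h0 := rep_mul_apply R g g⁻¹ 0 0
    have h1 := rep_mul_apply R g g⁻¹ 1 1
    rw [mul_inv_cancel, map_one, Matrix.one_apply_eq] at h0 h1
    simp [hg.1, hg.2.1, hg.2.2, hb] at h0 h1
    exact ⟨hb, h0.symm, h1.symm⟩

theorem mem_unip {g : G} : g ∈ unip R ↔ R g 1 0 = 0 ∧ R g 0 0 = 1 ∧ R g 1 1 = 1 := Iff.rfl

theorem unip_le_borel : unip R ≤ borel R := fun _ h => h.1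

theorem det_eq_one_of_mem_unip {g : G} (hg : g ∈ unip R) : (R g).det = 1 := by
  rw [det_of_upper R hg.1, hg.2.1, hg.2.2, one_mul]

theorem entry_mul {u u' : G} (hu : u ∈ unip R) (hu' : u' ∈ unip R) :
    R (u * u') 0 1 = R u 0 1 + R u' 0 1 := by
  rw [rep_mul_apply, hu.2.1, hu'.2.2, one_mul, mul_one, add_comm]

theorem pow_upper {g : G} {a : k} (hc : R g 1 0 = 0) (ha : R g 0 0 = a) (hd : R g 1 1 = a) (n : ℕ) :
    R (g ^ n) 1 0 = 0 ∧ R (g ^ n) 0 0 = a ^ n ∧ R (g ^ n) 1 1 = a ^ n ∧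
      R (g ^ n) 0 1 = (n : k) * a ^ (n - 1) * R g 0 1 := by
  induction n with
  | zero => simp
  | succ n ih =>
    obtain ⟨h1, h2, h3, h4⟩ := ih
    rw [pow_succ]
    refine ⟨by simp [rep_mul_apply, h1, hc], by simp [rep_mul_apply, h2, hc, ha, pow_succ],
      by simp [rep_mul_apply, h3, h1, hd, pow_succ], ?_⟩
    rw [rep_mul_apply, h2, h4, hd, Nat.add_sub_cancel]
    rcases n with - | n
    · simp
    · rw [Nat.add_sub_cancel]
      push_cast
      ring

theorem conj_unip {g u : G} (hg : g ∈ borel R) (hu : u ∈ unip R) :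
    g * u * g⁻¹ ∈ unip R ∧ R (g * u * g⁻¹) 0 1 = R g 0 0 / R g 1 1 * R u 0 1 := by
  obtain ⟨ha, hd⟩ := diag_ne_zero R hg
  have hb : g * u * g⁻¹ ∈ borel R :=
    (borel R).mul_mem ((borel R).mul_mem hg (unip_le_borel R hu)) ((borel R).inv_mem hg)
  have e : ∀ i j, R (g * u * g⁻¹ * g) i j = R (g * u) i j := fun i j => by
    rw [inv_mul_cancel_right]
  have hg' : R g 1 0 = 0 := hg
  revert hb e
  generalize g * u * g⁻¹ = w
  intro hb e
  have hb' : R w 1 0 = 0 := hb
  have h0 := e 0 0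
  have h1 := e 1 1
  have h2 := e 0 1
  rw [rep_mul_apply, rep_mul_apply] at h0 h1 h2
  rw [hg', hu.1, hu.2.1, mul_zero, mul_zero, add_zero, add_zero, mul_one] at h0
  rw [hb', hg', hu.2.2, zero_mul, zero_mul, zero_add, zero_add, mul_one] at h1
  rw [hu.2.2, mul_one] at h2
  have h00 : R w 0 0 = 1 := mul_right_cancel₀ ha (by rw [one_mul]; exact h0)
  have h11 : R w 1 1 = 1 := mul_right_cancel₀ hd (by rw [one_mul]; exact h1)
  refine ⟨⟨hb, h00, h11⟩, ?_⟩
  rw [h00] at h2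
  rw [div_mul_eq_mul_div, eq_div_iff hd]
  linear_combination h2

theorem mem_borel_of_conj {g u : G} (hu : u ∈ unip R) (hx : R u 0 1 ≠ 0)
    (h : g * u * g⁻¹ ∈ unip R) : g ∈ borel R := by
  have e : R (g * u * g⁻¹ * g) 1 1 = R (g * u) 1 1 := by rw [inv_mul_cancel_right]
  revert h e
  generalize g * u * g⁻¹ = w
  intro h e
  rw [rep_mul_apply, rep_mul_apply, h.1, h.2.2, hu.2.2, zero_mul, zero_add, one_mul, mul_one,
    eq_comm, add_eq_right] at e
  exact (mul_eq_zero.mp e).resolve_right hx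

variable (hinj : Function.Injective R)

include hinj in
theorem eq_of_entry {u u' : G} (hu : u ∈ unip R) (hu' : u' ∈ unip R)
    (h : R u 0 1 = R u' 0 1) : u = u' := by
  refine hinj (Matrix.ext fun i j => ?_)
  fin_cases i <;> fin_cases j <;> simp [hu.1, hu.2.1, hu.2.2, hu'.1, hu'.2.1, hu'.2.2, h]

include hinj in
theorem pow_p_eq_one {u : G} (hu : u ∈ unip R) : u ^ p = 1 := by
  obtain ⟨h1, h2, h3, h4⟩ := pow_upper R hu.1 hu.2.1 hu.2.2 p
  refine eq_of_entry R hinj ((unip R).pow_mem hu p) (unip R).one_mem ?_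
  rw [h4, CharP.cast_eq_zero k p]
  simp

include hinj in
theorem isPGroup_unip : IsPGroup p (unip R) :=
  fun u => ⟨1, Subtype.ext (by simpa using pow_p_eq_one R hinj u.2)⟩

/-- The elements of determinant one. -/
def detOne : Subgroup G where
  carrier := {g | (R g).det = 1}
  one_mem' := by simp
  mul_mem' {g g'} hg hg' := by
    simp only [Set.mem_ofPred_eq] at hg hg' ⊢
    rw [map_mul, Matrix.det_mul, hg, hg', one_mul]
  inv_mem' {g} hg := by
    simp only [Set.mem_ofPred_eq] at hg ⊢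
    have := det_rep_mul_inv R g
    rwa [hg, one_mul] at this

theorem mem_detOne {g : G} : g ∈ detOne R ↔ (R g).det = 1 := Iff.rfl

variable [Finite G]

include hinj in
theorem mem_unip_of_commute {g u : G} (hu : u ∈ unip R) (hx : R u 0 1 ≠ 0)
    (hgu : g * u = u * g) {n : ℕ} (hn : g ^ p ^ n = 1) : g ∈ unip R := by
  have hg : g ∈ borel R :=
    mem_borel_of_conj R hu hx (by rw [hgu, mul_inv_cancel_right]; exact hu)
  have hdiag : R g 0 0 = R g 1 1 := by
    have := congrArg (fun z => R z 0 1) hgu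
    simp only [rep_mul_apply, hu.2.1, hu.2.2] at this
    have h : R u 0 1 * R g 0 0 = R u 0 1 * R g 1 1 := by linear_combination this
    exact mul_left_cancel₀ hx h
  obtain ⟨-, h2, -, -⟩ := pow_upper R hg rfl hdiag.symm (p ^ n)
  rw [hn, map_one, Matrix.one_apply_eq] at h2
  have h1 : (R g 0 0 - 1) ^ p ^ n = 0 := by rw [sub_pow_char_pow, ← h2, one_pow, sub_self]
  have h00 : R g 0 0 = 1 := sub_eq_zero.mp (eq_zero_of_pow_eq_zero h1)
  exact ⟨hg, h00, hdiag ▸ h00⟩

include hinj in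
theorem eq_unip_of_isPGroup {u : G} (hu : u ∈ unip R) (hu1 : u ≠ 1) {Q : Subgroup G}
    (hQ : IsPGroup p Q) (hle : unip R ≤ Q) : Q = unip R := by
  refine le_antisymm (fun g hg => ?_) hle
  have hx : R u 0 1 ≠ 0 := fun h =>
    hu1 (eq_of_entry R hinj hu (unip R).one_mem (by rw [h, map_one]; simp))
  haveI : Nontrivial Q := ⟨⟨⟨u, hle hu⟩, 1, fun h => hu1 (congrArg Subtype.val h)⟩⟩
  haveI := hQ.center_nontrivial
  obtain ⟨⟨w, hw⟩, hw1⟩ := exists_ne (1 : Subgroup.center Q)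
  have hcomm : ∀ y : Q, (y : G) * w = w * y := fun y =>
    congrArg Subtype.val (Subgroup.mem_center_iff.mp hw y)
  obtain ⟨n, hn⟩ := hQ w
  have hwU : (w : G) ∈ unip R :=
    mem_unip_of_commute R hinj hu hx (hcomm ⟨u, hle hu⟩).symm (congrArg Subtype.val hn)
  have hwx : R (w : G) 0 1 ≠ 0 := fun h => hw1 (Subtype.ext (Subtype.ext
    (eq_of_entry R hinj hwU (unip R).one_mem (by rw [h]; simp))))
  obtain ⟨m, hm⟩ := hQ ⟨g, hg⟩
  exact mem_unip_of_commute R hinj hwU hwx (hcomm ⟨g, hg⟩) (congrArg Subtype.val hm)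

include hinj in
theorem not_dvd_index_unip {u : G} (hu : u ∈ unip R) (hu1 : u ≠ 1) : ¬ p ∣ (unip R).index := by
  obtain ⟨Q, hQ⟩ := (isPGroup_unip R hinj).exists_le_sylow
  rw [← eq_unip_of_isPGroup R hinj hu hu1 Q.2 hQ]
  exact Q.not_dvd_index

include hinj in
theorem exists_conj_mem_unip {u : G} (hu : u ∈ unip R) (hu1 : u ≠ 1) {g : G}
    (hg : (R g).det = 1) (hgp : g ^ p = 1) :
    ∃ σ : G, (R σ).det = 1 ∧ σ * g * σ⁻¹ ∈ unip R := by
  set S := detOne R
  have hUS : unip R ≤ S := fun x hx => det_eq_one_of_mem_unip R hx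
  obtain ⟨P, hP⟩ :=
    ((isPGroup_unip R hinj).comap_of_injective S.subtype S.subtype_injective).exists_le_sylow
  have hP' : (P : Subgroup S).map S.subtype = unip R := by
    refine eq_unip_of_isPGroup R hinj hu hu1 (P.2.map S.subtype) fun x hx => ?_
    exact ⟨⟨x, hUS hx⟩, hP hx, rfl⟩
  have hz : IsPGroup p (Subgroup.zpowers (⟨g, hg⟩ : S)) := by
    intro x
    obtain ⟨i, hi⟩ := Subgroup.mem_zpowers_iff.mp x.2
    refine ⟨1, Subtype.ext ?_⟩
    have hgp' : (⟨g, hg⟩ : S) ^ p = 1 := Subtype.ext (by simpa using hgp)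
    rw [pow_one, SubmonoidClass.coe_pow, ← hi, ← zpow_natCast, ← zpow_mul, mul_comm, zpow_mul,
      zpow_natCast, hgp', _root_.one_zpow]
    rfl
  obtain ⟨Q, hQ⟩ := hz.exists_le_sylow
  obtain ⟨σ, hσ⟩ := MulAction.exists_smul_eq S Q P
  refine ⟨σ, σ.2, ?_⟩
  rw [← hP', ← hσ]
  refine ⟨σ * ⟨g, hg⟩ * σ⁻¹, ?_, rfl⟩
  exact ⟨⟨g, hg⟩, hQ (Subgroup.mem_zpowers _), rfl⟩

end Fermat.Agent.TW
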