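/-
TW1: the torus normalising the unipotent elements is cyclic of order at least half the number of
unipotent elements.
-/
import Fermat.Agent.TW.Borel
import Mathlib.RingTheory.IntegralDomain
import Mathlib.GroupTheory.Index
import Mathlib.LinearAlgebra.Matrix.CharP

set_option autoImplicit false
set_option linter.unusedSectionVars false
set_option linter.style.haveILetI false

noncomputable section

open Matrix Polynomial MulAction
open scoped LinearAlgebra.Projectivization

namespace Fermat.Agent.TW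

variable {p : ℕ} [Fact p.Prime] {k : Type*} [Field k] [CharP k p] {G : Type*} [Group G]
  (R : G →* Matrix (Fin 2) (Fin 2) k)

/-- The action on lines. -/
abbrev lineAction : MulAction G (ℙ k (Fin 2 → k)) :=
  MulAction.compHom _ ((Matrix.GeneralLinearGroup.toLin (R := k) (n := Fin 2)).toMonoidHom.comp
    R.toHomUnits)

theorem fixes_mk_iff (g : G) {v : Fin 2 → k} (hv : v ≠ 0) :
    (letI := lineAction R; g • Projectivization.mk k v hv = Projectivization.mk k v hv) ↔
      ∃ a : k, R g *ᵥ v = a • v := by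
  show Projectivization.mk k _ _ = _ ↔ _
  rw [Projectivization.mk_eq_mk_iff']
  exact ⟨fun ⟨a, ha⟩ => ⟨a, ha.symm⟩, fun ⟨a, ha⟩ => ⟨a, ha.symm⟩⟩

theorem mulVec_fin_two (A : Matrix (Fin 2) (Fin 2) k) (v : Fin 2 → k) (i : Fin 2) :
    (A *ᵥ v) i = A i 0 * v 0 + A i 1 * v 1 := by
  simp [Matrix.mulVec, dotProduct, Fin.sum_univ_two]

theorem vec_ne_zero : (![1, 0] : Fin 2 → k) ≠ 0 := fun h => by simpa using congrFun h 0

theorem eigen_infty_iff (A : Matrix (Fin 2) (Fin 2) k) :
    (∃ a : k, A *ᵥ ![1, 0] = a • ![1, 0]) ↔ A 1 0 = 0 := by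
  constructor
  · rintro ⟨a, ha⟩
    simpa [mulVec_fin_two] using congrFun ha 1
  · intro h
    refine ⟨A 0 0, funext fun i => ?_⟩
    fin_cases i <;> simp [mulVec_fin_two, h]

theorem eq_scalar_iff_fixes_all (A : Matrix (Fin 2) (Fin 2) k) :
    (A 1 0 = 0 ∧ A 0 1 = 0 ∧ A 0 0 = A 1 1) ↔
      ∀ v : Fin 2 → k, v ≠ 0 → ∃ a : k, A *ᵥ v = a • v := by
  constructor
  · rintro ⟨h1, h2, h3⟩ v -
    exact ⟨A 0 0, funext fun i => by fin_cases i <;> simp [mulVec_fin_two, h1, h2, h3]⟩
  · intro h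
    have h10 : A 1 0 = 0 := (eigen_infty_iff A).mp (h _ vec_ne_zero)
    obtain ⟨b, hb⟩ := h ![0, 1] fun e => by simpa using congrFun e 1
    obtain ⟨c, hc⟩ := h ![1, 1] fun e => by simpa using congrFun e 1
    have h01 : A 0 1 = 0 := by simpa [mulVec_fin_two] using congrFun hb 0
    have c0 : A 0 0 = c := by simpa [mulVec_fin_two, h01] using congrFun hc 0
    have c1 : A 1 1 = c := by simpa [mulVec_fin_two, h10] using congrFun hc 1
    exact ⟨h10, h01, c0.trans c1.symm⟩

theorem eigen_of_smul {A : Matrix (Fin 2) (Fin 2) k} {γ a : k} {v : Fin 2 → k}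
    (h : A *ᵥ v = γ • v) : A *ᵥ (a • v) = γ • (a • v) := by
  rw [Matrix.mulVec_smul, h, smul_comm]

variable [Finite G] [Finite k] (hinj : Function.Injective R)
  (hsplit : ∀ g, ∃ α β : k, (R g).charpoly = (X - C α) * (X - C β))
  (hirr : ∀ v : Fin 2 → k, (∀ g, ∃ a : k, R g *ᵥ v = a • v) → v = 0)

open scoped Classical in
include hsplit in
theorem card_fixed (g : G) (hg : ¬ (R g 1 0 = 0 ∧ R g 0 1 = 0 ∧ R g 0 0 = R g 1 1))
    [Fintype (ℙ k (Fin 2 → k))] :
    (letI := lineAction R; (Finset.univ.filter fun x : ℙ k (Fin 2 → k) => g • x = x).card) =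
      if (R g).trace ^ 2 = 4 * (R g).det then 1 else 2 := by
  letI := lineAction R
  obtain ⟨α, β, hαβ⟩ := hsplit g
  obtain ⟨v, hv, hvα⟩ := exists_eigenvector hαβ
  obtain ⟨w, hw, hwβ⟩ := exists_eigenvector (α := β) (β := α) (by rw [hαβ, mul_comm])
  have hns : ∀ a : k, R g ≠ a • 1 := fun a ha => hg (by simp [ha])
  have hcases : ∀ x : ℙ k (Fin 2 → k), g • x = x ↔
      x = Projectivization.mk k v hv ∨ x = Projectivization.mk k w hw := by
    intro x
    induction x with | h u hu => ?_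
    rw [fixes_mk_iff R g hu, Projectivization.mk_eq_mk_iff', Projectivization.mk_eq_mk_iff']
    constructor
    · rintro ⟨γ, hγ⟩
      have h2 := quadratic_of_eigenvector hu hγ
      have hγ' : γ = α ∨ γ = β := by
        have e := congrArg (eval γ) (Matrix.charpoly_fin_two (R g))
        rw [hαβ] at e
        simp at e
        rw [h2] at e
        exact (mul_eq_zero.mp e).imp sub_eq_zero.mp sub_eq_zero.mp
      rcases hγ' with rfl | rfl
      · obtain ⟨a, -, ha⟩ := exists_smul_eq_of_eigen hns hv hu hvα hγ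
        exact Or.inl ⟨a, ha⟩
      · obtain ⟨a, -, ha⟩ := exists_smul_eq_of_eigen hns hw hu hwβ hγ
        exact Or.inr ⟨a, ha⟩
    · rintro (⟨a, rfl⟩ | ⟨a, rfl⟩)
      exacts [⟨α, eigen_of_smul hvα⟩, ⟨β, eigen_of_smul hwβ⟩]
  rw [show (Finset.univ.filter fun x : ℙ k (Fin 2 → k) => g • x = x) =
    {Projectivization.mk k v hv, Projectivization.mk k w hw} by ext x; simp [hcases]]
  by_cases hab : α = β
  · subst hab
    rw [if_pos ((trace_sq_eq_iff hαβ).mpr rfl)]
    obtain ⟨a, -, ha⟩ := exists_smul_eq_of_eigen hns hv hw hvα hwβ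
    rw [(Projectivization.mk_eq_mk_iff' k w v hw hv).mpr ⟨a, ha⟩]
    simp
  · rw [if_neg fun h => hab ((trace_sq_eq_iff hαβ).mp h), Finset.card_pair]
    intro h
    obtain ⟨a, ha⟩ := (Projectivization.mk_eq_mk_iff' k v w hv hw).mp h
    apply hab
    have e := eigen_of_smul (a := a) hwβ
    rw [ha, hvα] at e
    exact smul_left_injective k hv e

include hinj hsplit hirr in
theorem exists_torus_gen (hp2 : p ≠ 2) {u₀ : G} (hu₀ : u₀ ∈ unip R) (hx₀ : R u₀ 0 1 = 1) :
    ∃ g : G, g ∈ borel R ∧ (R g).det = 1 ∧ ∃ t : ℕ, 0 < t ∧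
      Nat.card (unip R) ≤ 2 * t + 1 ∧ (R g 0 0 / R g 1 1) ^ t = 1 ∧
      (∀ i, 0 < i → i < t → (R g 0 0 / R g 1 1) ^ i ≠ 1) := by
  classical
  letI := Fintype.ofFinite G
  haveI : Finite (ℙ k (Fin 2 → k)) := Quotient.finite _
  letI := Fintype.ofFinite (ℙ k (Fin 2 → k))
  letI := lineAction R
  have hu1 : u₀ ≠ 1 := fun h => by rw [h, map_one] at hx₀; simp at hx₀
  set S := detOne R with hSdef
  set Z : Subgroup S :=
    { carrier := {s | R s.1 1 0 = 0 ∧ R s.1 0 1 = 0 ∧ R s.1 0 0 = R s.1 1 1}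
      one_mem' := by simp
      mul_mem' := fun {s s'} hs hs' => by
        simp only [Set.mem_ofPred_eq, Subgroup.coe_mul] at hs hs' ⊢
        simp [rep_mul_apply, hs.1, hs.2.1, hs.2.2, hs'.1, hs'.2.1, hs'.2.2]
      inv_mem' := fun {s} hs => by
        simp only [Set.mem_ofPred_eq, Subgroup.coe_inv] at hs ⊢
        have hb : R s.1⁻¹ 1 0 = 0 := (borel R).inv_mem hs.1
        obtain ⟨ha, hd⟩ := diag_ne_zero R hs.1
        have e0 := rep_mul_apply R s.1 s.1⁻¹ 0 0
        have e1 := rep_mul_apply R s.1 s.1⁻¹ 1 1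
        have e2 := rep_mul_apply R s.1 s.1⁻¹ 0 1
        simp only [mul_inv_cancel, map_one, hs.1, hs.2.1, hb, Matrix.one_apply_eq,
          zero_mul, zero_add, add_zero] at e0 e1 e2
        rw [Matrix.one_apply_ne (by decide)] at e2
        refine ⟨hb, (mul_eq_zero.mp e2.symm).resolve_left ha, ?_⟩
        rw [hs.2.2] at e0
        exact mul_left_cancel₀ hd (e0.symm.trans e1) } with hZdef
  have hmemZ : ∀ s : S, s ∈ Z ↔ R s.1 1 0 = 0 ∧ R s.1 0 1 = 0 ∧ R s.1 0 0 = R s.1 1 1 :=
    fun _ => Iff.rfl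
  set x₀ : ℙ k (Fin 2 → k) := Projectivization.mk k ![1, 0] vec_ne_zero with hx₀def
  have hstabmem : ∀ s : S, s • x₀ = x₀ ↔ R s.1 1 0 = 0 := fun s =>
    (fixes_mk_iff R s.1 vec_ne_zero).trans (eigen_infty_iff _)
  have hZ : ∀ s : S, s ∈ Z ↔ ∀ x : ℙ k (Fin 2 → k), s • x = x := by
    intro s
    rw [hmemZ, eq_scalar_iff_fixes_all]
    constructor
    · intro h x
      induction x with | h v hv => exact (fixes_mk_iff R s.1 hv).mpr (h v hv)
    · exact fun h v hv => (fixes_mk_iff R s.1 hv).mp (h _)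
  set fx : S → ℕ := fun s => (Finset.univ.filter fun x : ℙ k (Fin 2 → k) => s • x = x).card
  have hfx : ∀ s : S, s ∉ Z →
      fx s = if (R s.1).trace ^ 2 = 4 * (R s.1).det then 1 else 2 := fun s hs => by
    refine Eq.trans ?_ (card_fixed R hsplit s.1 fun h => hs ((hmemZ s).mpr h))
    exact congrArg Finset.card (Finset.filter_congr fun x _ => Iff.rfl)
  have htwo : (2 : k) ≠ 0 := fun h => hp2 <| by
    have := (CharP.cast_eq_zero_iff k p 2).mp (by exact_mod_cast h)
    exact ((Nat.prime_dvd_prime_iff_eq Fact.out Nat.prime_two).mp this)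
  -- diagonal and one fixed point
  have hdiag : ∀ g : G, R g 1 0 = 0 →
      ((R g).trace ^ 2 = 4 * (R g).det ↔ R g 0 0 = R g 1 1) := by
    intro g hg
    rw [det_of_upper R hg, Matrix.trace_fin_two]
    constructor
    · intro h
      have : (R g 0 0 - R g 1 1) ^ 2 = 0 := by linear_combination h
      exact sub_eq_zero.mp (eq_zero_of_pow_eq_zero this)
    · intro h; rw [h]; ring
  set z := Nat.card Z
  set q := Nat.card (unip R)
  have hq3 : 3 ≤ q := by
    have h : orderOf (⟨u₀, hu₀⟩ : unip R) = p := orderOf_eq_prime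
      (Subtype.ext (by simpa using pow_p_eq_one R hinj hu₀)) fun h => hu1 (congrArg Subtype.val h)
    have h2 : p ≤ q := by
      rw [← h]
      exact Nat.le_of_dvd Nat.card_pos (orderOf_dvd_natCard _)
    have h3 : 2 ≤ p := (Fact.out : p.Prime).two_le
    omega
  let av : stabilizer S x₀ →* kˣ :=
    { toFun := fun s => Units.mk0 (R s.1.1 0 0 / R s.1.1 1 1)
        (div_ne_zero (diag_ne_zero R ((hstabmem _).mp s.2)).1
          (diag_ne_zero R ((hstabmem _).mp s.2)).2)
      map_one' := Units.ext (by simp)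
      map_mul' := fun s s' => Units.ext (by
        simp [rep_mul_apply, (hstabmem _).mp s.2, (hstabmem _).mp s'.2, mul_div_mul_comm]) }
  have hker : ∀ s : stabilizer S x₀, s ∈ av.ker ↔ R s.1.1 0 0 = R s.1.1 1 1 := by
    intro s
    rw [MonoidHom.mem_ker, Units.ext_iff]
    exact div_eq_one_iff_eq (diag_ne_zero R ((hstabmem _).mp s.2)).2
  have hunipS : ∀ u : unip R, (u : G) ∈ S := fun u => det_eq_one_of_mem_unip R u.2
  have hkercard : Nat.card av.ker = z * q := by
    rw [← Nat.card_prod]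
    refine (Nat.card_congr (Equiv.ofBijective
      (fun su : Z × unip R => (⟨⟨su.1.1 * ⟨su.2.1, hunipS su.2⟩, (hstabmem _).mpr (by
          simp [rep_mul_apply, ((hmemZ _).mp su.1.2).1, su.2.2.1])⟩, (hker _).mpr (by
          simp [rep_mul_apply, ((hmemZ _).mp su.1.2).1, ((hmemZ _).mp su.1.2).2.1,
            ((hmemZ _).mp su.1.2).2.2, su.2.2.1, su.2.2.2.1, su.2.2.2.2])⟩ : av.ker)) ⟨?_, ?_⟩)).symm
    · rintro ⟨s, u⟩ ⟨s', u'⟩ h
      have h' : s.1.1 * u.1 = s'.1.1 * u'.1 := congrArg (fun e => e.1.1.1) h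
      obtain ⟨a1, a2, a3⟩ := (hmemZ _).mp s.2
      obtain ⟨b1, b2, b3⟩ := (hmemZ _).mp s'.2
      have e := congrArg (fun e => R e 0 0) h'
      simp [rep_mul_apply, a2, b2, u.2.1, u'.2.1, u.2.2.1, u'.2.2.1] at e
      have hs : s = s' := by
        refine Subtype.ext (Subtype.ext (hinj (Matrix.ext fun i j => ?_)))
        fin_cases i <;> fin_cases j <;> simp [a1, a2, b1, b2, e, ← a3, ← b3]
      subst hs
      exact Prod.ext rfl (Subtype.ext (mul_left_cancel h'))
    · rintro ⟨s, hs⟩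
      obtain ⟨⟨g, hgS⟩, hg⟩ := s
      have hc : R g 1 0 = 0 := (hstabmem _).mp hg
      have hd : R g 0 0 = R g 1 1 := (hker _).mp hs
      obtain ⟨h1, h2, h3, h4⟩ := pow_upper R hc rfl hd.symm p
      rw [CharP.cast_eq_zero k p, zero_mul, zero_mul] at h4
      have hpS : g ^ p ∈ S := S.pow_mem hgS p
      have hu : (g ^ p)⁻¹ * g ∈ unip R := by
        have hb : (g ^ p)⁻¹ * g ∈ borel R :=
          (borel R).mul_mem ((borel R).inv_mem h1) hc
        have e : ∀ i j, R (g ^ p * ((g ^ p)⁻¹ * g)) i j = R g i j := fun i j => by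
          rw [mul_inv_cancel_left]
        have hb' : R ((g ^ p)⁻¹ * g) 1 0 = 0 := hb
        revert hb hb' e
        generalize (g ^ p)⁻¹ * g = w
        intro hb e hb'
        have e0 := e 0 0
        have e1 := e 1 1
        rw [rep_mul_apply, h2, h4, hb', mul_zero, add_zero] at e0
        rw [rep_mul_apply, h1, h3, zero_mul, zero_add, ← hd] at e1
        have ha := (diag_ne_zero R hc).1
        have hap : R g 0 0 ^ p = R g 0 0 := by
          have hsq : R g 0 0 * R g 0 0 = 1 := by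
            have h5 : (R g).det = 1 := hgS
            rwa [det_of_upper R hc, ← hd] at h5
          obtain ⟨r, hr⟩ := (Fact.out : p.Prime).odd_of_ne_two hp2
          rw [hr, pow_succ, pow_mul, pow_two, hsq, one_pow, one_mul]
        rw [hap] at e0 e1
        exact ⟨hb', (mul_eq_left₀ ha).mp e0, (mul_eq_left₀ ha).mp e1⟩
      refine ⟨⟨⟨⟨g ^ p, hpS⟩, (hmemZ _).mpr ⟨h1, h4, by rw [h2, h3]⟩⟩, ⟨_, hu⟩⟩, ?_⟩
      exact Subtype.ext (Subtype.ext (Subtype.ext (mul_inv_cancel_left _ _)))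
  set t := Nat.card av.range with htdef
  have hstab : Nat.card (stabilizer S x₀) = z * q * t := by
    rw [htdef, Subgroup.card_eq_card_quotient_mul_card_subgroup av.ker,
      Nat.card_congr (QuotientGroup.quotientKerEquivRange av).toEquiv, hkercard, mul_comm]
  have honecard : (Finset.univ.filter fun s : S => s • x₀ = x₀ ∧ s ∉ Z ∧ fx s = 1).card =
      z * (q - 1) := by
    have h1 : (Finset.univ.filter fun s : S => s • x₀ = x₀ ∧ R s.1 0 0 = R s.1 1 1).card =
        z * q := by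
      rw [← hkercard, ← Fintype.card_subtype, ← Nat.card_eq_fintype_card]
      exact Nat.card_congr
        { toFun := fun s => ⟨⟨s.1, s.2.1⟩, (hker _).mpr s.2.2⟩
          invFun := fun s => ⟨s.1.1, s.1.2, (hker _).mp s.2⟩
          left_inv := fun _ => rfl
          right_inv := fun _ => rfl }
    have h2 : (Finset.univ.filter fun s : S => s ∈ Z).card = z := by
      rw [← Fintype.card_subtype, ← Nat.card_eq_fintype_card]
    have h3 : (Finset.univ.filter fun s : S => s • x₀ = x₀ ∧ s ∉ Z ∧ fx s = 1) =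
        (Finset.univ.filter fun s : S => s • x₀ = x₀ ∧ R s.1 0 0 = R s.1 1 1) \
          Finset.univ.filter fun s : S => s ∈ Z := by
      ext s
      simp only [Finset.mem_filter, Finset.mem_univ, true_and, Finset.mem_sdiff]
      constructor
      · rintro ⟨hs, hsZ, h⟩
        rw [hfx s hsZ] at h
        refine ⟨⟨hs, (hdiag _ ((hstabmem s).mp hs)).mp (by_contra fun e => ?_)⟩, hsZ⟩
        rw [if_neg e] at h
        exact absurd h (by norm_num)
      · rintro ⟨⟨hs, h⟩, hsZ⟩
        refine ⟨hs, hsZ, ?_⟩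
        rw [hfx s hsZ, if_pos ((hdiag _ ((hstabmem s).mp hs)).mpr h)]
    rw [h3, Finset.card_sdiff_of_subset, h1, h2, Nat.mul_sub, mul_one]
    intro s hs
    simp only [Finset.mem_filter, Finset.mem_univ, true_and] at hs ⊢
    exact ⟨(hZ s).mp hs x₀, ((hmemZ s).mp hs).2.2⟩
  have hone : ∀ s : S, s ∉ Z → fx s = 1 → ∀ x, s • x = x → x ∈ orbit S x₀ := by
    intro s hsZ hs1 x hx
    rw [hfx s hsZ] at hs1
    have htr : (R s.1).trace ^ 2 = 4 * (R s.1).det := by
      by_contra e
      rw [if_neg e] at hs1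
      exact absurd hs1 (by norm_num)
    -- a scalar times `s` is unipotent of order `p`
    have hdet : (R s.1).det = 1 := s.2
    obtain ⟨α, β, hαβ⟩ := hsplit s.1
    obtain rfl := (trace_sq_eq_iff hαβ).mp htr
    have hN : (R s.1 - α • 1) * (R s.1 - α • 1) = 0 := by
      have h := Matrix.aeval_self_charpoly (R s.1)
      rw [hαβ] at h
      simpa [Algebra.algebraMap_eq_smul_one] using h
    have hα2 : α * α = 1 := by
      have e := congrArg (eval 0) (Matrix.charpoly_fin_two (R s.1))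
      rw [hαβ, hdet] at e
      simpa using e
    have hαp : α ^ p = α := by
      obtain ⟨r, hr⟩ := (Fact.out : p.Prime).odd_of_ne_two hp2
      rw [hr, pow_succ, pow_mul, pow_two, hα2, one_pow, one_mul]
    have hsp : R (s.1 ^ p) = α • 1 := by
      rw [map_pow, show R s.1 = α • 1 + (R s.1 - α • 1) by abel,
        (((Commute.one_left (R s.1 - α • 1)).smul_left α)).add_pow_prime_eq (Fact.out : p.Prime)]
      obtain ⟨r, hr⟩ : ∃ r, p = r + 2 :=
        ⟨p - 2, by have := (Fact.out : p.Prime).two_le; omega⟩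
      have h0 : (R s.1 - α • 1) ^ p = 0 := by rw [hr, pow_add, pow_two, hN, mul_zero]
      rw [h0, add_zero, CharP.cast_eq_zero (Matrix (Fin 2) (Fin 2) k) p, zero_mul, zero_mul,
        zero_mul, add_zero, smul_pow, one_pow, hαp]
    set h : G := s.1 ^ p * s.1
    have hh : R h = α • R s.1 := by rw [map_mul, hsp, Matrix.smul_mul, one_mul]
    have hh1 : (R h).det = 1 := by rw [map_mul, map_pow, Matrix.det_mul, Matrix.det_pow, hdet]; simp
    have hhp : h ^ p = 1 := hinj (by
      rw [map_pow, hh, smul_pow, ← map_pow, hsp, hαp, smul_smul, hα2, one_smul, map_one])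
    obtain ⟨σ, hσ, hσu⟩ := exists_conj_mem_unip R hinj hu₀ hu1 hh1 hhp
    let τ : S := ⟨σ, hσ⟩
    have hhc : R (σ * h * σ⁻¹) = α • R (σ * s.1 * σ⁻¹) := by
      rw [map_mul, map_mul, hh, map_mul, map_mul, Matrix.mul_smul, Matrix.smul_mul]
    have hα0 : α ≠ 0 := fun e => by rw [e, mul_zero] at hα2; exact zero_ne_one hα2
    have hup : (τ * s * τ⁻¹) • x₀ = x₀ := by
      rw [hstabmem]
      have e := hσu.1
      rw [hhc, Matrix.smul_apply, smul_eq_mul] at e
      exact (mul_eq_zero.mp e).resolve_left hα0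
    have hx' : (τ * s * τ⁻¹) • τ • x = τ • x := (fix_conj_iff τ s x).mpr hx
    have hτZ : τ * s * τ⁻¹ ∉ Z := fun hh' => hsZ ((hZ s).mpr fun y =>
      (fix_conj_iff τ s y).mp ((hZ _).mp hh' _))
    have hcard : fx (τ * s * τ⁻¹) = 1 := by
      rw [hfx _ hτZ, if_pos]
      simp only [Subgroup.coe_mul, Subgroup.coe_inv, map_mul, τ]
      rw [Matrix.trace_mul_cycle, rep_inv_mul, one_mul, Matrix.det_mul, Matrix.det_mul, mul_comm (R σ).det,
        mul_assoc, det_rep_mul_inv, mul_one]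
      exact htr
    obtain ⟨y, hy⟩ := Finset.card_eq_one.mp hcard
    have hy' : ∀ w, (τ * s * τ⁻¹) • w = w → w = y := fun w hw => by
      have := (Finset.ext_iff.mp hy w).mp (Finset.mem_filter.mpr ⟨Finset.mem_univ _, hw⟩)
      simpa using this
    refine ⟨τ⁻¹, ?_⟩
    show τ⁻¹ • x₀ = x
    rw [inv_smul_eq_iff, hy' _ hup, hy' _ hx']
  have hmove : ∃ s : S, s • x₀ ≠ x₀ := by
    by_contra hcon
    have hcon' : ∀ s : S, R s.1 1 0 = 0 := fun s =>
      (hstabmem s).mp (by_contra fun e => hcon ⟨s, e⟩)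
    apply vec_ne_zero (k := k)
    refine hirr _ fun g => (eigen_infty_iff _).mpr ?_
    have hcS : g⁻¹ * u₀ * g ∈ S := by
      show (R _).det = 1
      rw [map_mul, map_mul, Matrix.det_mul, Matrix.det_mul, det_eq_one_of_mem_unip R hu₀, mul_one,
        mul_comm, det_rep_mul_inv]
    have h10 : R (g⁻¹ * u₀ * g) 1 0 = 0 := hcon' ⟨_, hcS⟩
    have e : R (g * (g⁻¹ * u₀ * g)) 0 0 = R (u₀ * g) 0 0 := by group
    have e' : R (g * (g⁻¹ * u₀ * g)) 1 0 = R (u₀ * g) 1 0 := by group
    revert h10 e e'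
    generalize g⁻¹ * u₀ * g = w
    intro h10 e e'
    rw [rep_mul_apply, rep_mul_apply, h10, hu₀.2.1, hx₀] at e
    rw [rep_mul_apply, rep_mul_apply, h10, hu₀.1, hu₀.2.2] at e'
    simp at e e'
    -- `R g 1 0 * R w 0 0 = R g 1 0` and `R g 0 0 * R w 0 0 = R g 0 0 + R g 1 0`
    by_contra hne
    have hw : R w 0 0 = 1 := (mul_eq_left₀ hne).mp e'
    rw [hw, mul_one, left_eq_add] at e
    exact hne e
  have hbound : q ≤ 2 * t + 1 :=
    torus_bound x₀ Z rfl hZ (fun s hs => by
      show fx s = 1 ∨ fx s = 2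
      rw [hfx s hs]
      split_ifs <;> simp) hone hstab honecard
      hmove hq3
  obtain ⟨⟨c, hc⟩, hgen⟩ := IsCyclic.exists_generator (α := av.range)
  obtain ⟨s, hs⟩ := hc
  have hord : orderOf c = t := by
    have : orderOf (⟨c, ⟨s, hs⟩⟩ : av.range) = t := orderOf_eq_card_of_forall_mem_zpowers hgen
    rwa [← Subgroup.orderOf_coe] at this
  have hcv : (c : k) = R s.1.1 0 0 / R s.1.1 1 1 := by rw [← hs]; rfl
  refine ⟨s.1.1, (hstabmem _).mp s.2, s.1.2, t, Nat.card_pos, hbound, ?_, fun i hi hit h => ?_⟩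
  · rw [← hcv, ← Units.val_pow_eq_pow_val, ← hord, pow_orderOf_eq_one, Units.val_one]
  · refine pow_ne_one_of_lt_orderOf hi.ne' (hord ▸ hit) (x := c) (Units.ext ?_)
    rw [Units.val_pow_eq_pow_val, hcv, h, Units.val_one]

end Fermat.Agent.TW
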