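/-
TW1: consequences of irreducibility on the subgroups of index at most two for the adjoint action.
-/
import Fermat.Agent.TW.Torus
import Mathlib.FieldTheory.IsAlgClosed.AlgebraicClosure
import Mathlib.GroupTheory.Index

set_option autoImplicit false
set_option linter.unusedSectionVars false
set_option linter.style.haveILetI false

noncomputable section

open Matrix Polynomial

namespace Fermat.Agent.TW

variable {k : Type} [Field k] {G : Type*} [Group G] {R : G →* Matrix (Fin 2) (Fin 2) k}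
  (hirr : ∀ H : Subgroup G, H = ⊤ ∨ H.index = 2 → ∀ v : Fin 2 → AlgebraicClosure k,
    (∀ σ ∈ H, ∃ c : AlgebraicClosure k,
      ((R σ).map (algebraMap k (AlgebraicClosure k))) *ᵥ v = c • v) → v = 0)

include hirr in
theorem no_eigenline (v : Fin 2 → k) (h : ∀ g, ∃ a : k, R g *ᵥ v = a • v) : v = 0 := by
  set f := algebraMap k (AlgebraicClosure k)
  have h0 := hirr ⊤ (Or.inl rfl) (fun i => f (v i)) fun g _ => by
    obtain ⟨a, ha⟩ := h g
    refine ⟨f a, funext fun i => ?_⟩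
    rw [mulVec_fin_two, Pi.smul_apply, smul_eq_mul, Matrix.map_apply, Matrix.map_apply, ← map_mul,
      ← map_mul, ← map_add, ← mulVec_fin_two, ha, Pi.smul_apply, smul_eq_mul, map_mul]
  funext i
  exact (map_eq_zero_iff f f.injective).mp (congrFun h0 i)

include hirr in
/-- No non-scalar matrix commutes or anticommutes with the whole image. -/
theorem no_commutant {A : Matrix (Fin 2) (Fin 2) k} (hA : ∀ a : k, A ≠ a • 1)
    (h : ∀ g, R g * A = A * R g ∨ R g * A = -(A * R g)) : False := by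
  let H : Subgroup G :=
    { carrier := {g | R g * A = A * R g}
      one_mem' := by simp
      mul_mem' := fun {a b} ha hb => by
        simp only [Set.mem_ofPred_eq] at ha hb ⊢
        rw [map_mul, mul_assoc, hb, ← mul_assoc, ha, mul_assoc]
      inv_mem' := fun {a} ha => by
        simp only [Set.mem_ofPred_eq] at ha ⊢
        calc R a⁻¹ * A = R a⁻¹ * (A * R a) * R a⁻¹ := by
              simp only [mul_assoc, rep_mul_inv, mul_one]
          _ = _ := by rw [← ha]; simp only [← mul_assoc, rep_inv_mul, one_mul] }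
  have hH : H = ⊤ ∨ H.index = 2 := by
    by_cases hall : ∀ g, g ∈ H
    · exact Or.inl (eq_top_iff.mpr fun g _ => hall g)
    · refine Or.inr ?_
      obtain ⟨a, ha⟩ := not_forall.mp hall
      have hneg : ∀ g, g ∉ H → R g * A = -(A * R g) := fun g hg => (h g).resolve_left hg
      refine Subgroup.index_eq_two_iff.mpr ⟨a, fun b => ?_⟩
      by_cases hb : b ∈ H
      · exact Or.inr ⟨hb, fun hba => ha ((H.mul_mem_cancel_left hb).mp hba)⟩
      · refine Or.inl ⟨?_, hb⟩
        show R (b * a) * A = A * R (b * a)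
        rw [map_mul, mul_assoc, hneg a ha, mul_neg, ← mul_assoc, hneg b hb, neg_mul, neg_neg,
          mul_assoc]
  set f := algebraMap k (AlgebraicClosure k)
  set A' := A.map f with hA'
  obtain ⟨μ, hμ⟩ := IsAlgClosed.exists_root A'.charpoly
    (by rw [Matrix.charpoly_degree_eq_dim]; norm_num)
  obtain ⟨v, hv, hve⟩ := Matrix.exists_mulVec_eq_zero_iff.mpr
    (show (scalar (Fin 2) μ - A').det = 0 by rw [← Matrix.eval_charpoly]; exact hμ)
  have hv' : A' *ᵥ v = μ • v := by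
    rw [Matrix.sub_mulVec, sub_eq_zero] at hve
    rw [← hve]
    ext i
    simp [Matrix.mulVec_diagonal]
  have hA2 : ∀ a : AlgebraicClosure k, A' ≠ a • 1 := by
    intro a ha
    have e : ∀ i j, f (A i j) = (a • (1 : Matrix (Fin 2) (Fin 2) (AlgebraicClosure k))) i j :=
      fun i j => congrFun (congrFun ha i) j
    refine hA (A 0 0) (Matrix.ext fun i j => f.injective ?_)
    fin_cases i <;> fin_cases j <;> simp [e]
  refine hv (hirr H hH v fun g hg => ?_)
  have hcomm : (R g).map f * A' = A' * (R g).map f := by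
    rw [hA', ← Matrix.map_mul, ← Matrix.map_mul]
    exact congrArg (fun X => X.map f) hg
  by_cases hgv : (R g).map f *ᵥ v = 0
  · exact ⟨0, by rw [hgv, zero_smul]⟩
  obtain ⟨a, -, ha⟩ := exists_smul_eq_of_eigen hA2 hv hgv hv' (by
    rw [Matrix.mulVec_mulVec, ← hcomm, ← Matrix.mulVec_mulVec, hv', Matrix.mulVec_smul])
  exact ⟨a, ha.symm⟩

include hirr in
/-- No line of trace-zero matrices is stable. -/
theorem no_stable_line {v : Matrix (Fin 2) (Fin 2) k} (hv : v ≠ 0) (htr : v.trace = 0)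
    (h2 : (2 : k) ≠ 0) (h : ∀ g, ∃ c : k, adAct R g v = c • v) : False := by
  have h' : ∀ g, ∃ c : k, c ≠ 0 ∧ R g * v = c • (v * R g) := by
    intro g
    obtain ⟨c, hc⟩ := h g
    have hd := det_rep_ne_zero R g
    have hc0 : c ≠ 0 := fun h0 => hv (by
      rw [h0, zero_smul] at hc
      have e := congrArg (adAct R g⁻¹) hc
      rw [← adAct_mul, inv_mul_cancel, adAct_one, adAct_zero] at e
      exact e)
    refine ⟨c / (R g).det, div_ne_zero hc0 hd, ?_⟩
    have e := adAct_mul_comm R g v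
    rw [hc, Matrix.smul_mul] at e
    rw [div_eq_inv_mul, mul_smul, e, smul_smul, inv_mul_cancel₀ hd, one_smul]
  have hsc : ∀ a : k, v ≠ a • 1 := fun a ha => hv (by
    rw [ha, Matrix.trace_smul, Matrix.trace_one, Fintype.card_fin, smul_eq_mul] at htr
    have : a = 0 := by
      rcases mul_eq_zero.mp htr with h0 | h0
      · exact h0
      · exact absurd (by exact_mod_cast h0) h2
    rw [ha, this, zero_smul])
  by_cases hdet : v.det = 0
  · obtain ⟨x, hx, hvx⟩ := Matrix.exists_mulVec_eq_zero_iff.mpr hdet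
    refine hx (no_eigenline hirr x fun g => ?_)
    obtain ⟨c, hc0, hc⟩ := h' g
    have hgx : v *ᵥ (R g *ᵥ x) = 0 := by
      have e : (R g * v) *ᵥ x = c • ((v * R g) *ᵥ x) := by rw [hc, Matrix.smul_mulVec]
      rw [← Matrix.mulVec_mulVec, hvx, Matrix.mulVec_zero, eq_comm, smul_eq_zero] at e
      rw [Matrix.mulVec_mulVec]
      exact e.resolve_left hc0
    by_cases h0 : R g *ᵥ x = 0
    · exact ⟨0, by rw [h0, zero_smul]⟩
    obtain ⟨a, -, ha⟩ := exists_smul_eq_of_eigen hsc (γ := 0) hx h0 (by rw [hvx, zero_smul])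
      (by rw [hgx, zero_smul])
    exact ⟨a, ha.symm⟩
  · refine no_commutant hirr hsc fun g => ?_
    obtain ⟨c, -, hc⟩ := h' g
    have e := congrArg Matrix.det hc
    rw [Matrix.det_mul, Matrix.det_smul, Matrix.det_mul, Fintype.card_fin, mul_comm v.det] at e
    have hc2 : c ^ 2 = 1 :=
      (mul_eq_right₀ (mul_ne_zero (det_rep_ne_zero R g) hdet)).mp e.symm
    rcases sq_eq_one_iff.mp hc2 with rfl | rfl
    · exact Or.inl (by rw [hc, one_smul])
    · exact Or.inr (by rw [hc, neg_one_smul])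

theorem exists_eq_smul_of_cross₃ {a₀ a₁ a₂ b₀ b₁ b₂ : k} (ha : a₀ ≠ 0 ∨ a₁ ≠ 0 ∨ a₂ ≠ 0)
    (h01 : a₀ * b₁ = a₁ * b₀) (h02 : a₀ * b₂ = a₂ * b₀) (h12 : a₁ * b₂ = a₂ * b₁) :
    ∃ c : k, b₀ = c * a₀ ∧ b₁ = c * a₁ ∧ b₂ = c * a₂ := by
  rcases ha with h | h | h
  · exact ⟨b₀ / a₀, by field_simp, by field_simp; linear_combination h01,
      by field_simp; linear_combination h02⟩
  · exact ⟨b₁ / a₁, by field_simp; linear_combination -h01, by field_simp,
      by field_simp; linear_combination h12⟩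
  · exact ⟨b₂ / a₂, by field_simp; linear_combination -h02,
      by field_simp; linear_combination -h12, by field_simp⟩

/-- Trace-zero matrices orthogonal to two independent ones are proportional. -/
theorem exists_smul_eq_of_orth (h2 : (2 : k) ≠ 0) {w₁ w₂ v v' : Matrix (Fin 2) (Fin 2) k}
    (hw₁t : w₁.trace = 0) (hw₂t : w₂.trace = 0) (hvt : v.trace = 0) (hv't : v'.trace = 0)
    (hw₁ : w₁ ≠ 0) (hind : ∀ c : k, w₂ ≠ c • w₁) (hv : v ≠ 0)
    (e₁ : (w₁ * v).trace = 0) (e₂ : (w₂ * v).trace = 0) (e₁' : (w₁ * v').trace = 0)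
    (e₂' : (w₂ * v').trace = 0) : ∃ c : k, v' = c • v := by
  simp only [Matrix.trace_fin_two, Matrix.mul_apply, Fin.sum_univ_two] at hw₁t hw₂t hvt hv't e₁ e₂ e₁' e₂'
  have a11 : w₁ 1 1 = -w₁ 0 0 := eq_neg_of_add_eq_zero_right hw₁t
  have b11 : w₂ 1 1 = -w₂ 0 0 := eq_neg_of_add_eq_zero_right hw₂t
  have v11 : v 1 1 = -v 0 0 := eq_neg_of_add_eq_zero_right hvt
  have v'11 : v' 1 1 = -v' 0 0 := eq_neg_of_add_eq_zero_right hv't
  rw [a11, v11] at e₁
  rw [b11, v11] at e₂
  rw [a11, v'11] at e₁'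
  rw [b11, v'11] at e₂'
  set u₀ := w₁ 1 0 * w₂ 0 1 - w₁ 0 1 * w₂ 1 0 with hu₀
  set u₁ := w₁ 0 1 * (2 * w₂ 0 0) - 2 * w₁ 0 0 * w₂ 0 1 with hu₁
  set u₂ := 2 * w₁ 0 0 * w₂ 1 0 - w₁ 1 0 * (2 * w₂ 0 0) with hu₂
  have hu : u₀ ≠ 0 ∨ u₁ ≠ 0 ∨ u₂ ≠ 0 := by
    by_contra hcon
    simp only [not_or, not_not] at hcon
    obtain ⟨n0, n1, n2⟩ := hcon
    have ha : 2 * w₁ 0 0 ≠ 0 ∨ w₁ 1 0 ≠ 0 ∨ w₁ 0 1 ≠ 0 := by
      by_contra hcon
      simp only [not_or, not_not] at hcon
      obtain ⟨m0, m1, m2⟩ := hcon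
      have m0' : w₁ 0 0 = 0 := (mul_eq_zero.mp m0).resolve_left h2
      refine hw₁ (Matrix.ext fun i j => ?_)
      fin_cases i <;> fin_cases j <;> simp [m0', m1, m2, a11]
    obtain ⟨c, c0, c1, c2⟩ := exists_eq_smul_of_cross₃ (b₀ := 2 * w₂ 0 0) (b₁ := w₂ 1 0)
      (b₂ := w₂ 0 1) ha (by linear_combination n2) (by linear_combination -n1)
      (by linear_combination n0)
    have c0' : w₂ 0 0 = c * w₁ 0 0 := mul_left_cancel₀ h2 (by linear_combination c0)
    refine hind c (Matrix.ext fun i j => ?_)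
    fin_cases i <;> fin_cases j <;> simp [c0', c1, c2, a11, b11]
  have par : ∀ x : Matrix (Fin 2) (Fin 2) k,
      w₁ 0 0 * x 0 0 + w₁ 0 1 * x 1 0 + (w₁ 1 0 * x 0 1 + -w₁ 0 0 * -x 0 0) = 0 →
      w₂ 0 0 * x 0 0 + w₂ 0 1 * x 1 0 + (w₂ 1 0 * x 0 1 + -w₂ 0 0 * -x 0 0) = 0 →
      ∃ c : k, x 0 0 = c * u₀ ∧ x 0 1 = c * u₁ ∧ x 1 0 = c * u₂ := by
    intro x f₁ f₂
    refine exists_eq_smul_of_cross₃ hu ?_ ?_ ?_
    · rw [hu₀, hu₁]; linear_combination w₂ 0 1 * f₁ - w₁ 0 1 * f₂
    · rw [hu₀, hu₂]; linear_combination (-w₂ 1 0) * f₁ + w₁ 1 0 * f₂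
    · rw [hu₁, hu₂]; linear_combination (2 * w₂ 0 0) * f₁ - 2 * w₁ 0 0 * f₂
  obtain ⟨c, c0, c1, c2⟩ := par v e₁ e₂
  obtain ⟨c', c0', c1', c2'⟩ := par v' e₁' e₂'
  have hc : c ≠ 0 := fun hc => hv (Matrix.ext fun i j => by
    fin_cases i <;> fin_cases j <;> simp [c0, c1, c2, v11, hc])
  refine ⟨c' / c, Matrix.ext fun i j => ?_⟩
  fin_cases i <;> fin_cases j <;> simp [c0, c1, c2, c0', c1', c2', v11, v'11] <;> field_simp

theorem rank_one_identity (N y : Matrix (Fin 2) (Fin 2) k) (hN : N.det = 0) :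
    N * y * N = (N * y).trace • N := by
  rw [Matrix.det_fin_two] at hN
  ext i j
  fin_cases i <;> fin_cases j <;>
    simp [Matrix.mul_apply, Fin.sum_univ_two, Matrix.trace_fin_two]
  · linear_combination (-y 1 1) * hN
  · linear_combination y 0 1 * hN
  · linear_combination y 1 0 * hN
  · linear_combination (-y 0 0) * hN

include hirr in
/-- A normal subgroup of determinant one containing the commutators has an element with distinct
eigenvalues. -/
theorem exists_distinct (h2 : (2 : k) ≠ 0)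
    (hsplit : ∀ g, ∃ α β : k, (R g).charpoly = (X - C α) * (X - C β)) (T : Subgroup G) [T.Normal]
    (hT : ∀ a b : G, a * b * a⁻¹ * b⁻¹ ∈ T) (hdet : ∀ σ ∈ T, (R σ).det = 1) :
    ∃ σ ∈ T, (R σ).trace ^ 2 ≠ 4 * (R σ).det := by
  by_contra hcon
  have htr : ∀ σ ∈ T, (R σ).trace ^ 2 = 4 * (R σ).det := fun σ hσ =>
    by_contra fun h => hcon ⟨σ, hσ, h⟩
  have h4 : (4 : k) ≠ 0 := by
    rw [show (4 : k) = 2 * 2 by norm_num]; exact mul_ne_zero h2 h2
  by_cases hall : ∀ σ ∈ T, ∃ a : k, R σ = a • 1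
  · -- the image commutes up to sign
    by_cases hsc : ∀ g, ∃ a : k, R g = a • 1
    · have := no_eigenline hirr ![1, 0] fun g => by
        obtain ⟨a, ha⟩ := hsc g
        exact ⟨a, by rw [ha, Matrix.smul_mulVec, Matrix.one_mulVec]⟩
      exact vec_ne_zero this
    obtain ⟨g₀, hg₀⟩ := not_forall.mp hsc
    refine no_commutant hirr (fun a ha => hg₀ ⟨a, ha⟩) fun g => ?_
    obtain ⟨c, hc⟩ := hall _ (hT g g₀)
    have hc2 : c ^ 2 = 1 := by
      have := hdet _ (hT g g₀)
      rwa [hc, Matrix.det_smul, Matrix.det_one, mul_one, Fintype.card_fin] at this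
    have e : R g * R g₀ = c • (R g₀ * R g) := by
      have e : R (g * g₀ * g⁻¹ * g₀⁻¹) * R (g₀ * g) = R (g * g₀) := by
        rw [← map_mul]; congr 1; group
      rw [hc, Matrix.smul_mul, one_mul, map_mul, map_mul] at e
      exact e.symm
    rcases sq_eq_one_iff.mp hc2 with rfl | rfl
    · exact Or.inl (by rw [e, one_smul])
    · exact Or.inr (by rw [e, neg_one_smul])
  obtain ⟨h₀, hh₀⟩ := not_forall.mp hall
  obtain ⟨hh₀T, hh₀ns⟩ := Classical.not_imp.mp hh₀
  have hns : ∀ a : k, R h₀ ≠ a • 1 := fun a ha => hh₀ns ⟨a, ha⟩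
  obtain ⟨α, β, hαβ⟩ := hsplit h₀
  obtain rfl := (trace_sq_eq_iff hαβ).mp (htr _ hh₀T)
  have ech := Matrix.charpoly_fin_two (R h₀)
  rw [hαβ, hdet _ hh₀T] at ech
  have hα2 : α * α = 1 := by simpa using congrArg (eval 0) ech
  have hαtr : (R h₀).trace = 2 * α := by
    have := congrArg (eval 1) ech
    simp at this
    linear_combination this - hα2
  set N := R h₀ - α • 1 with hNdef
  have hNdet : N.det = 0 := by
    have h0 : (scalar (Fin 2) α - R h₀).det = 0 := by
      rw [← Matrix.eval_charpoly, hαβ]; simp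
    have e : N = -(scalar (Fin 2) α - R h₀) := by
      rw [hNdef, neg_sub]; congr 1; exact Matrix.smul_one_eq_diagonal α
    rw [e, Matrix.det_neg, h0, mul_zero]
  obtain ⟨v, hv, hhv⟩ := exists_eigenvector hαβ
  have hNv : N *ᵥ v = 0 := by
    rw [hNdef, Matrix.sub_mulVec, hhv, Matrix.smul_mulVec, Matrix.one_mulVec, sub_self]
  obtain ⟨w, hw⟩ : ∃ w, N *ᵥ w ≠ 0 := by
    by_contra hcon'
    refine hns α (sub_eq_zero.mp (Matrix.ext fun i j => ?_))
    have h := congrFun (not_exists_not.mp hcon' (Pi.single j 1)) i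
    simpa [hNdef] using h
  have hsq : ∀ y ∈ T, (R y).trace = 2 ∨ (R y).trace = -2 := fun y hy => by
    have := htr y hy
    rw [hdet y hy, mul_one] at this
    exact sq_eq_sq_iff_eq_or_eq_neg.mp (by linear_combination this)
  have key : ∀ y ∈ T, (N * R y).trace = 0 := by
    intro y hy
    have t0 := hsq y hy
    have e1 : (R (h₀ * y)).trace = α * (R y).trace + (N * R y).trace := by
      rw [map_mul, show R h₀ = α • 1 + N by rw [hNdef]; abel, add_mul, Matrix.smul_mul, one_mul,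
        Matrix.trace_add, Matrix.trace_smul, smul_eq_mul]
    have hNN : N * N = 0 := by
      have := rank_one_identity N 1 hNdet
      rw [mul_one] at this
      rw [this, hNdef, Matrix.trace_sub, hαtr, Matrix.trace_smul, Matrix.trace_one,
        Fintype.card_fin, smul_eq_mul]
      push_cast
      rw [show (2 * α - α * 2 : k) = 0 by ring, zero_smul]
    have e2 : (R (h₀ * (h₀ * y))).trace = (R y).trace + 2 * α * (N * R y).trace := by
      rw [map_mul, map_mul, ← mul_assoc,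
        show R h₀ * R h₀ = (α * α) • 1 + (2 * α) • N by
          rw [show R h₀ = α • 1 + N by rw [hNdef]; abel]
          simp only [add_mul, mul_add, Matrix.smul_mul, Matrix.mul_smul, one_mul, mul_one, hNN,
            add_zero, smul_smul, two_mul, add_smul, smul_add]
          abel,
        hα2, one_smul, add_mul, one_mul, Matrix.smul_mul, Matrix.trace_add, Matrix.trace_smul,
        smul_eq_mul]
    have t1 := hsq _ (T.mul_mem hh₀T hy)
    have t2 := hsq _ (T.mul_mem hh₀T (T.mul_mem hh₀T hy))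
    rw [e1] at t1
    rw [e2] at t2
    set n := (N * R y).trace
    -- `t`, `α (t + α n)` and `t + 2 α n` are all `±2`
    have hαn : α * n = 0 := by
      have q0 : (R y).trace ^ 2 = 4 := by rcases t0 with h | h <;> rw [h] <;> ring
      have q1 : (α * (R y).trace + n) ^ 2 = 4 := by rcases t1 with h | h <;> rw [h] <;> ring
      have q2 : ((R y).trace + 2 * α * n) ^ 2 = 4 := by rcases t2 with h | h <;> rw [h] <;> ring
      have hm : 4 * (α * n * ((R y).trace + α * n)) = 0 := by linear_combination q2 - q0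
      refine (mul_eq_zero.mp ((mul_eq_zero.mp hm).resolve_left h4)).resolve_right fun h0 => h4 ?_
      linear_combination -q1 + ((α * α) * ((R y).trace + α * n) + 0) * h0 + (-n ^ 2 * (α * α + 1) - 2 * (R y).trace * α * n) * hα2
    rcases mul_eq_zero.mp hαn with hz | hz
    · rw [hz, mul_zero] at hα2; exact absurd hα2 zero_ne_one
    · exact hz
  have hfix : ∀ y ∈ T, ∃ a : k, R y *ᵥ v = a • v := by
    intro y hy
    obtain ⟨a, -, ha⟩ := exists_smul_eq_of_cross (v := v) (w := N *ᵥ w) hv hw (by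
      by_contra hcr
      -- `N w` lies in the kernel of `N`
      have hNN : N *ᵥ (N *ᵥ w) = 0 := by
        rw [Matrix.mulVec_mulVec, show N * N = 0 by
          have := rank_one_identity N 1 hNdet
          rw [mul_one] at this
          rw [this, hNdef, Matrix.trace_sub, hαtr, Matrix.trace_smul, Matrix.trace_one,
            Fintype.card_fin, smul_eq_mul]
          push_cast
          rw [show (2 * α - α * 2 : k) = 0 by ring, zero_smul], Matrix.zero_mulVec]
      have := eq_scalar_of_eigen (A := N) (γ := 0) hcr (by rw [hNv, zero_smul])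
        (by rw [hNN, zero_smul])
      rw [zero_smul] at this
      exact hw (by rw [this, Matrix.zero_mulVec]))
    have hNy : N *ᵥ (R y *ᵥ (N *ᵥ w)) = 0 := by
      rw [Matrix.mulVec_mulVec, Matrix.mulVec_mulVec, rank_one_identity N (R y) hNdet, key y hy,
        zero_smul, Matrix.zero_mulVec]
    rw [← ha, Matrix.mulVec_smul, Matrix.mulVec_smul] at hNy
    have hNy' : N *ᵥ (R y *ᵥ v) = 0 := (smul_eq_zero.mp hNy).resolve_left fun h0 => hw (by
      rw [← ha, h0, zero_smul])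
    by_cases hy0 : R y *ᵥ v = 0
    · exact ⟨0, by rw [hy0, zero_smul]⟩
    rw [hNdef, Matrix.sub_mulVec, Matrix.smul_mulVec, Matrix.one_mulVec, sub_eq_zero] at hNy'
    obtain ⟨b, -, hb⟩ := exists_smul_eq_of_eigen hns hv hy0 hhv hNy'
    exact ⟨b, hb.symm⟩
  refine hv (no_eigenline hirr v fun g => ?_)
  have hgv : R g *ᵥ v ≠ 0 := fun h => hv (by
    rw [← Matrix.one_mulVec v, ← rep_inv_mul R g, ← Matrix.mulVec_mulVec, h, Matrix.mulVec_zero])
  obtain ⟨a, ha⟩ := hfix _ (Subgroup.Normal.conj_mem inferInstance h₀ hh₀T g⁻¹)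
  have e : R h₀ *ᵥ (R g *ᵥ v) = a • (R g *ᵥ v) := by
    calc R h₀ *ᵥ (R g *ᵥ v) = R g *ᵥ (R (g⁻¹ * h₀ * g⁻¹⁻¹) *ᵥ v) := by
          rw [Matrix.mulVec_mulVec, Matrix.mulVec_mulVec, ← map_mul, ← map_mul]
          congr 2; group
      _ = a • (R g *ᵥ v) := by rw [ha, Matrix.mulVec_smul]
  obtain rfl : a = α := by
    have h := quadratic_of_eigenvector hgv e
    rw [hαtr, hdet _ hh₀T] at h
    exact sub_eq_zero.mp (eq_zero_of_pow_eq_zero
      (show (a - α) ^ 2 = 0 by linear_combination h + hα2))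
  obtain ⟨b, -, hb⟩ := exists_smul_eq_of_eigen hns hv hgv hhv e
  exact ⟨b, hb.symm⟩

include hirr in
/-- A stable family of trace-zero matrices is not orthogonal to a non-scalar matrix. -/
theorem exists_trace_ne_zero (h2 : (2 : k) ≠ 0) (W : Set (Matrix (Fin 2) (Fin 2) k))
    (hW : ∀ g, ∀ w ∈ W, adAct R g w ∈ W) (hWt : ∀ w ∈ W, w.trace = 0)
    (hne : ∃ w ∈ W, w ≠ 0) {A : Matrix (Fin 2) (Fin 2) k} (hA : ∀ a : k, A ≠ a • 1) :
    ∃ w ∈ W, (w * A).trace ≠ 0 := by
  by_contra hcon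
  have horth : ∀ w ∈ W, (w * A).trace = 0 := fun w hw => by_contra fun h => hcon ⟨w, hw, h⟩
  obtain ⟨w₁, hw₁, hw₁0⟩ := hne
  obtain ⟨g₀, hg₀⟩ : ∃ g, ∀ c : k, adAct R g w₁ ≠ c • w₁ := by
    by_contra hc
    refine no_stable_line hirr hw₁0 (hWt _ hw₁) h2 fun g => ?_
    by_contra hg
    exact hc ⟨g, fun c h => hg ⟨c, h⟩⟩
  set v := A - (A.trace / 2) • (1 : Matrix (Fin 2) (Fin 2) k) with hvdef
  have hvt : v.trace = 0 := by
    rw [hvdef, Matrix.trace_sub, Matrix.trace_smul, Matrix.trace_one, Fintype.card_fin, smul_eq_mul]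
    push_cast
    rw [div_mul_cancel₀ _ h2, sub_self]
  have hv : v ≠ 0 := fun h => hA (A.trace / 2) (sub_eq_zero.mp h)
  have horth' : ∀ w ∈ W, (w * v).trace = 0 := fun w hw => by
    rw [hvdef, mul_sub, Matrix.trace_sub, horth w hw, Matrix.mul_smul, Matrix.trace_smul, mul_one,
      hWt w hw, smul_zero, sub_zero]
  refine no_stable_line hirr hv hvt h2 fun g => ?_
  have hconj : ∀ w ∈ W, (w * adAct R g v).trace = 0 := fun w hw => by
    obtain ⟨w', hw', rfl⟩ : ∃ w' ∈ W, adAct R g w' = w :=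
      ⟨adAct R g⁻¹ w, hW _ w hw, by rw [← adAct_mul, mul_inv_cancel, adAct_one]⟩
    simp only [adAct, Matrix.smul_mul, Matrix.mul_smul, Matrix.trace_smul, smul_eq_mul]
    rw [show R g * w' * R g⁻¹ * (R g * v * R g⁻¹) = R g * (w' * v) * R g⁻¹ by
      simp only [mul_assoc]; rw [← mul_assoc (R g⁻¹) (R g), rep_inv_mul, one_mul],
      Matrix.trace_mul_cycle, rep_inv_mul, one_mul, horth' w' hw']
    ring
  exact exists_smul_eq_of_orth h2 (hWt _ hw₁) (hWt _ (hW g₀ _ hw₁)) hvt
    (by rw [trace_adAct, hvt, mul_zero]) hw₁0 hg₀ hv (horth' _ hw₁) (horth' _ (hW g₀ _ hw₁))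
    (hconj _ hw₁) (hconj _ (hW g₀ _ hw₁))

end Fermat.Agent.TW
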