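/-
TW1: cocycles of the twisted adjoint become trivial on the upper unipotent elements.
-/
import Fermat.Agent.TW.Torus
import Mathlib.GroupTheory.PGroup
import Mathlib.Algebra.Polynomial.Roots
import Mathlib.FieldTheory.Finite.Basic
import Mathlib.RingTheory.RootsOfUnity.PrimitiveRoots

set_option autoImplicit false
set_option linter.unusedSectionVars false
set_option linter.style.haveILetI false

noncomputable section

open Matrix Polynomial

namespace Fermat.Agent.TW

variable {p : ℕ} [Fact p.Prime] {k : Type*} [Field k] [CharP k p] {G : Type*} [Group G]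
  {R : G →* Matrix (Fin 2) (Fin 2) k} {ψ : G → Matrix (Fin 2) (Fin 2) k}

namespace IsTwCocycle

variable (hψ : IsTwCocycle R ψ)
include hψ

theorem apply_one_one (σ : G) : ψ σ 1 1 = -ψ σ 0 0 := by
  have h := hψ.trace_eq_zero σ
  rw [Matrix.trace_fin_two] at h
  exact eq_neg_of_add_eq_zero_right h

theorem lower_mul {g : G} (hg : R g 1 0 = 0) (g' : G) :
    ψ (g * g') 1 0 = ψ g 1 0 + R g 1 1 ^ 2 * ψ g' 1 0 := by
  rw [hψ.map_mul, adAct_eq_adjugate, Matrix.adjugate_fin_two]
  simp [Matrix.mul_apply, Fin.sum_univ_two, hg]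
  ring

theorem diag_mul {g : G} (hg : R g 1 0 = 0) (g' : G) :
    ψ (g * g') 0 0 = ψ g 0 0 + R g 0 0 * R g 1 1 * ψ g' 0 0 + R g 0 1 * R g 1 1 * ψ g' 1 0 := by
  rw [hψ.map_mul, adAct_eq_adjugate, Matrix.adjugate_fin_two]
  simp [Matrix.mul_apply, Fin.sum_univ_two, hg]
  ring

theorem upper_mul {g : G} (hg : R g 1 0 = 0) (g' : G) :
    ψ (g * g') 0 1 = ψ g 0 1 + R g 0 0 ^ 2 * ψ g' 0 1 - 2 * R g 0 0 * R g 0 1 * ψ g' 0 0 -
      R g 0 1 ^ 2 * ψ g' 1 0 := by
  rw [hψ.map_mul, adAct_eq_adjugate, Matrix.adjugate_fin_two]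
  simp [Matrix.mul_apply, Fin.sum_univ_two, hg, hψ.apply_one_one g']
  ring

theorem eq_zero_of_entries {σ : G} (h00 : ψ σ 0 0 = 0) (h01 : ψ σ 0 1 = 0) (h10 : ψ σ 1 0 = 0) :
    ψ σ = 0 := by
  refine Matrix.ext fun i j => ?_
  fin_cases i <;> fin_cases j <;> simp [h00, h01, h10, hψ.apply_one_one σ]

end IsTwCocycle

theorem isTwCocycle_sub_coboundary (hψ : IsTwCocycle R ψ) {m : Matrix (Fin 2) (Fin 2) k}
    (hm : m.trace = 0) : IsTwCocycle R fun σ => ψ σ - coboundary R m σ :=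
  hψ.sub (isTwCocycle_coboundary R hm)

theorem coboundary_lower {g : G} (hg : R g 1 0 = 0) (m : Matrix (Fin 2) (Fin 2) k) :
    coboundary R m g 1 0 = (R g 1 1 ^ 2 - 1) * m 1 0 := by
  rw [coboundary, adAct_eq_adjugate, Matrix.adjugate_fin_two]
  simp [Matrix.mul_apply, Fin.sum_univ_two, hg]
  ring

theorem coboundary_diag {g : G} (hg : R g 1 0 = 0) {m : Matrix (Fin 2) (Fin 2) k} :
    coboundary R m g 0 0 =
      (R g 0 0 * R g 1 1 - 1) * m 0 0 + R g 0 1 * R g 1 1 * m 1 0 := by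
  rw [coboundary, adAct_eq_adjugate, Matrix.adjugate_fin_two]
  simp [Matrix.mul_apply, Fin.sum_univ_two, hg]
  ring

theorem coboundary_upper {g : G} (hg : R g 1 0 = 0) {m : Matrix (Fin 2) (Fin 2) k}
    (hm : m 1 1 = -m 0 0) :
    coboundary R m g 0 1 = (R g 0 0 ^ 2 - 1) * m 0 1 - 2 * R g 0 0 * R g 0 1 * m 0 0 -
      R g 0 1 ^ 2 * m 1 0 := by
  rw [coboundary, adAct_eq_adjugate, Matrix.adjugate_fin_two]
  simp [Matrix.mul_apply, Fin.sum_univ_two, hg, hm]
  ring

variable (R) in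
/-- The upper right entries of the unipotent elements. -/
def unipEntries : AddSubgroup k where
  carrier := {c | ∃ u ∈ unip R, R u 0 1 = c}
  zero_mem' := ⟨1, (unip R).one_mem, by simp⟩
  add_mem' := by
    rintro _ _ ⟨u, hu, rfl⟩ ⟨v, hv, rfl⟩
    exact ⟨u * v, (unip R).mul_mem hu hv, entry_mul R hu hv⟩
  neg_mem' := by
    rintro _ ⟨u, hu, rfl⟩
    refine ⟨u⁻¹, (unip R).inv_mem hu, eq_neg_of_add_eq_zero_left ?_⟩
    rw [← entry_mul R ((unip R).inv_mem hu) hu, inv_mul_cancel, map_one]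
    simp

theorem card_unipEntries (hinj : Function.Injective R) :
    Nat.card (unipEntries R) = Nat.card (unip R) :=
  (Nat.card_congr (Equiv.ofBijective
    (fun u : unip R => (⟨R u.1 0 1, u.1, u.2, rfl⟩ : unipEntries R))
    ⟨fun u v h => Subtype.ext (eq_of_entry R hinj u.2 v.2 (congrArg Subtype.val h)),
      fun c => ⟨⟨c.2.choose, c.2.choose_spec.1⟩, Subtype.ext c.2.choose_spec.2⟩⟩)).symm

theorem mul_entry_mem {g : G} (hg : g ∈ borel R) {c : k} (hc : c ∈ unipEntries R) :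
    R g 0 0 / R g 1 1 * c ∈ unipEntries R := by
  obtain ⟨u, hu, rfl⟩ := hc
  exact ⟨_, (conj_unip R hg hu).1, (conj_unip R hg hu).2⟩

variable [Finite G] [Finite k] (hinj : Function.Injective R) (hp2 : p ≠ 2)
  (hsplit : ∀ g, ∃ α β : k, (R g).charpoly = (X - C α) * (X - C β))
  (hirr : ∀ v : Fin 2 → k, (∀ g, ∃ a : k, R g *ᵥ v = a • v) → v = 0)
  {u₀ : G} (hu₀ : u₀ ∈ unip R) (hx₀ : R u₀ 0 1 = 1)

include hinj hp2 hu₀ hx₀ in
/-- If there are more than `p` unipotents their entries form a field containing the torus squares. -/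
theorem unipEntries_field (hbig : Nat.card (unip R) ≠ p) {g : G} (hg : g ∈ borel R)
    {t : ℕ} (ht : 0 < t) (hbound : Nat.card (unip R) ≤ 2 * t + 1)
    (hpow : (R g 0 0 / R g 1 1) ^ t = 1)
    (hord : ∀ i, 0 < i → i < t → (R g 0 0 / R g 1 1) ^ i ≠ 1) :
    p ^ 2 ≤ Nat.card (unip R) ∧ t ∣ Nat.card (unip R) - 1 ∧
      (∀ a ∈ unipEntries R, ∀ b ∈ unipEntries R, a * b ∈ unipEntries R) ∧
      ∀ a ∈ unipEntries R, a ≠ 0 → ∃ i : ℕ, (R g 0 0 / R g 1 1) ^ i = a ^ 2 := by
  classical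
  letI := Fintype.ofFinite k
  have hp : p.Prime := Fact.out
  set α := R g 0 0 / R g 1 1
  set X' := unipEntries R
  obtain ⟨m, hm⟩ := (IsPGroup.iff_card (p := p) (G := unip R)).mp (isPGroup_unip R hinj)
  set q := Nat.card (unip R)
  have hq : q = p ^ m := hm
  have hu1 : u₀ ≠ 1 := fun h => by rw [h, map_one] at hx₀; simp at hx₀
  have hm2 : 2 ≤ m := by
    by_contra hcon
    interval_cases m
    · have : Subsingleton (unip R) := (Nat.card_eq_one_iff_unique.mp (by rw [← pow_zero p]; exact hq)).1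
      exact hu1 (congrArg Subtype.val (Subsingleton.elim (⟨u₀, hu₀⟩ : unip R) 1))
    · exact hbig (by rw [hq, pow_one])
  let F : Subring k :=
    { carrier := {c | ∀ x ∈ X', c * x ∈ X'}
      one_mem' := fun x hx => by rwa [one_mul]
      zero_mem' := fun x _ => by rw [zero_mul]; exact X'.zero_mem
      mul_mem' := fun {a b} ha hb x hx => by rw [mul_assoc]; exact ha _ (hb x hx)
      add_mem' := fun {a b} ha hb x hx => by rw [add_mul]; exact X'.add_mem (ha x hx) (hb x hx)
      neg_mem' := fun {a} ha x hx => by rw [neg_mul]; exact X'.neg_mem (ha x hx) }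
  have hFX : ∀ c ∈ F, c ∈ X' := fun c hc => by
    simpa using hc 1 ⟨u₀, hu₀, hx₀⟩
  have hαF : α ∈ F := fun x hx => mul_entry_mem hg hx
  have hα0 : α ≠ 0 := fun h => by rw [h, zero_pow ht.ne'] at hpow; exact zero_ne_one hpow
  have hq' : Nat.card X' = q := card_unipEntries hinj
  -- the powers of the torus generator and zero
  have hcardF : t + 1 ≤ Nat.card F := by
    rw [← Nat.card_fin (t + 1)]
    refine Nat.card_le_card_of_injective
      (fun i => if h : i.1 = t then (0 : F) else ⟨α ^ i.1, F.pow_mem hαF _⟩) fun i j h => ?_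
    have h' := congrArg Subtype.val h
    dsimp only at h'
    by_cases hi : i.1 = t <;> by_cases hj : j.1 = t <;> simp only [hi, hj, dif_pos, dite_false] at h'
    · exact Fin.ext (hi.trans hj.symm)
    · exact absurd h'.symm (by simpa using pow_ne_zero j.1 hα0)
    · exact absurd h' (by simpa using pow_ne_zero i.1 hα0)
    · have hi' : i.1 < t := by omega
      have hj' : j.1 < t := by omega
      have e : α ^ i.1 = α ^ j.1 := h'
      rcases lt_trichotomy i.1 j.1 with hlt | heq | hlt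
      · refine absurd ?_ (hord (j.1 - i.1) (by omega) (by omega))
        exact mul_left_cancel₀ (pow_ne_zero i.1 hα0)
          (by rw [← pow_add, mul_one, Nat.add_sub_cancel' hlt.le, e])
      · exact Fin.ext heq
      · refine absurd ?_ (hord (i.1 - j.1) (by omega) (by omega))
        exact mul_left_cancel₀ (pow_ne_zero j.1 hα0)
          (by rw [← pow_add, mul_one, Nat.add_sub_cancel' hlt.le, e])
  have hdvd : Nat.card F.toAddSubgroup ∣ q := hq' ▸ AddSubgroup.card_dvd_of_le hFX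
  rw [hq] at hdvd
  obtain ⟨r, hr, hFr⟩ := (Nat.dvd_prime_pow hp).mp hdvd
  have hFr' : Nat.card F = p ^ r := hFr
  have hp3 : 3 ≤ p := by have := hp.two_le; omega
  have hrm : r = m := by
    by_contra hne
    have h1 : p ^ (r + 1) ≤ p ^ m := Nat.pow_le_pow_right hp.pos (by omega)
    rw [pow_succ] at h1
    have h2 : p ^ r * 3 ≤ p ^ r * p := Nat.mul_le_mul_left _ hp3
    omega
  have heq : ∀ c ∈ X', c ∈ F := by
    have : F.toAddSubgroup = X' :=
      AddSubgroup.eq_of_le_of_card_ge hFX (by rw [hFr, hrm, ← hq, hq'])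
    intro c hc
    have hc' : c ∈ F.toAddSubgroup := this ▸ hc
    exact hc'
  have hFq : Fintype.card F = q := by rw [← Nat.card_eq_fintype_card, hFr', hrm, hq]
  letI : Field F := Fintype.fieldOfDomain F
  have hfermat : ∀ a ∈ X', a ≠ 0 → a ^ (q - 1) = 1 := by
    intro a ha ha0
    have h := FiniteField.pow_card_sub_one_eq_one (⟨a, heq a ha⟩ : F)
      (fun h => ha0 (congrArg Subtype.val h))
    rw [hFq] at h
    simpa using congrArg Subtype.val h
  have htq : t ∣ q - 1 := by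
    have h := hfermat α (hFX α hαF) hα0
    by_contra hnd
    refine hord ((q - 1) % t) ?_ (Nat.mod_lt _ ht) ?_
    · exact Nat.pos_of_ne_zero fun h0 => hnd (Nat.dvd_of_mod_eq_zero h0)
    · rw [← Nat.div_add_mod (q - 1) t, pow_add, pow_mul, hpow, one_pow, one_mul] at h
      exact h
  refine ⟨?_, htq, fun a ha b hb => heq a ha b hb, fun a ha ha0 => ?_⟩
  · rw [hq]; exact Nat.pow_le_pow_right hp.pos hm2
  · have h2t : q - 1 ∣ 2 * t := by
      obtain ⟨i, hi⟩ := htq
      have hq9 : 9 ≤ q := by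
        calc 9 = 3 ^ 2 := by norm_num
          _ ≤ p ^ 2 := Nat.pow_le_pow_left hp3 2
          _ ≤ q := hq ▸ Nat.pow_le_pow_right hp.pos hm2
      have hi2 : i ≤ 2 := by
        by_contra hcon
        have : t * 3 ≤ t * i := Nat.mul_le_mul_left _ (by omega)
        omega
      rw [hi]
      interval_cases i
      · omega
      · exact Dvd.intro 2 (by ring)
      · exact Dvd.intro 1 (by ring)
    have hroot : (a ^ 2) ^ t = 1 := by
      obtain ⟨i, hi⟩ := h2t
      rw [← pow_mul, hi, pow_mul, hfermat a ha ha0, one_pow]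
    have hprim : IsPrimitiveRoot α t := IsPrimitiveRoot.mk_of_lt _ ht hpow hord
    haveI : NeZero t := ⟨ht.ne'⟩
    obtain ⟨i, -, hi⟩ := hprim.eq_pow_of_pow_eq_one hroot
    exact ⟨i, hi⟩

include hinj hu₀ hx₀ in
/-- A unipotent element is a power of the fixed one when there are `p` of them. -/
theorem exists_pow_eq (hcard : Nat.card (unip R) = p) {u : G} (hu : u ∈ unip R) :
    ∃ i : ℕ, u₀ ^ i = u := by
  have hu1 : (⟨u₀, hu₀⟩ : unip R) ≠ 1 := fun h => by
    have := congrArg (fun e : unip R => R e.1 0 1) h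
    simp [hx₀] at this
  have hord : orderOf (⟨u₀, hu₀⟩ : unip R) = p :=
    orderOf_eq_prime (Subtype.ext (by simpa using pow_p_eq_one R hinj hu₀)) hu1
  have htop : Subgroup.zpowers (⟨u₀, hu₀⟩ : unip R) = ⊤ :=
    Subgroup.eq_top_of_card_eq _ (by rw [Nat.card_zpowers, hord, hcard])
  obtain ⟨i, hi⟩ := mem_powers_iff_mem_zpowers.mpr (htop ▸ Subgroup.mem_top (⟨u, hu⟩ : unip R))
  exact ⟨i, congrArg Subtype.val hi⟩

include hinj hp2 hsplit hirr hu₀ hx₀ in
/-- The lower component of a cocycle vanishes on the unipotent elements. -/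
theorem lower_eq_zero (hψ : IsTwCocycle R ψ)
    (hdet : ∃ g : G, ∃ d : ℕ, (R g).det = d ∧ ∀ a : ℕ, (a : k) ^ 2 ≠ d) :
    ∀ u ∈ unip R, ψ u 1 0 = 0 := by
  have hadd : ∀ u ∈ unip R, ∀ v, ψ (u * v) 1 0 = ψ u 1 0 + ψ v 1 0 := fun u hu v => by
    rw [hψ.lower_mul hu.1, hu.2.2]; ring
  have hconj : ∀ g ∈ borel R, ∀ u ∈ unip R,
      ψ (g * u * g⁻¹) 1 0 = R g 1 1 ^ 2 * ψ u 1 0 := by
    intro g hg u hu
    have h := hψ.lower_mul (mem_borel R |>.mp hg) u
    have h' := hadd (g * u * g⁻¹) (conj_unip R hg hu).1 g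
    rw [inv_mul_cancel_right, h, add_comm] at h'
    exact (add_right_cancel h').symm
  by_cases hp3 : p = 3
  · -- elements of order three
    subst hp3
    intro u hu
    have hu2 : u * u ∈ unip R := (unip R).mul_mem hu hu
    have h1 := hψ.upper_mul hu.1 u
    have h2 := hψ.diag_mul hu.1 u
    have h3 := hψ.upper_mul hu2.1 u
    have e : u * u * u = 1 := by
      rw [← pow_two, ← pow_succ]; exact pow_p_eq_one R hinj hu
    have hx := entry_mul R hu hu
    rw [e, hψ.map_one, hu2.2.1, hx] at h3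
    rw [hu.2.1, hu.2.2] at h2
    rw [hu.2.1] at h1
    rw [h1] at h3
    simp only [Matrix.zero_apply] at h3
    have h30 : (3 : k) = 0 := by exact_mod_cast CharP.cast_eq_zero k 3
    have h0 : R u 0 1 ^ 2 * ψ u 1 0 = 0 := by
      linear_combination -h3 - (ψ u 0 1 - 2 * R u 0 1 * ψ u 0 0 - 2 * R u 0 1 ^ 2 * ψ u 1 0) * h30
    rcases mul_eq_zero.mp h0 with h0 | h0
    · have : u = 1 := eq_of_entry R hinj hu (unip R).one_mem
        (by rw [eq_zero_of_pow_eq_zero h0]; simp)
      rw [this, hψ.map_one]; rfl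
    · exact h0
  have hu1 : u₀ ≠ 1 := fun h => by rw [h, map_one] at hx₀; simp at hx₀
  have hp : p.Prime := Fact.out
  by_cases hcard : Nat.card (unip R) = p
  · -- the determinant is not a square of the prime field
    obtain ⟨g₀, d, hd, hsq⟩ := hdet
    have hconjdet : (R (g₀ * u₀ * g₀⁻¹)).det = 1 := by
      rw [map_mul, map_mul, Matrix.det_mul, Matrix.det_mul, det_eq_one_of_mem_unip R hu₀, mul_one,
        det_rep_mul_inv]
    have hconjp : (g₀ * u₀ * g₀⁻¹) ^ p = 1 := by
      rw [conj_pow, pow_p_eq_one R hinj hu₀, mul_one, mul_inv_cancel]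
    obtain ⟨σ, hσ, hσu⟩ := exists_conj_mem_unip R hinj hu₀ hu1 hconjdet hconjp
    have hb : σ * g₀ ∈ borel R := mem_borel_of_conj R hu₀ (by rw [hx₀]; exact one_ne_zero) (by
      have : σ * g₀ * u₀ * (σ * g₀)⁻¹ = σ * (g₀ * u₀ * g₀⁻¹) * σ⁻¹ := by group
      rw [this]; exact hσu)
    have hdet' : R (σ * g₀) 0 0 * R (σ * g₀) 1 1 = d := by
      rw [← det_of_upper R hb, map_mul, Matrix.det_mul, hσ, one_mul, hd]
    obtain ⟨hcu, hcx⟩ := conj_unip R hb hu₀
    obtain ⟨i, hi⟩ := exists_pow_eq hinj hu₀ hx₀ hcard hcu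
    have hpow : ∀ j : ℕ, ψ (u₀ ^ j) 1 0 = j * ψ u₀ 1 0 := by
      intro j
      induction j with
      | zero => simp [hψ.map_one]
      | succ j ih => rw [pow_succ, hadd _ ((unip R).pow_mem hu₀ j), ih]; push_cast; ring
    have hxi : R (u₀ ^ i) 0 1 = (i : k) := by
      rw [(pow_upper R hu₀.1 hu₀.2.1 hu₀.2.2 i).2.2.2, hx₀]; simp
    rw [← hi] at hcx
    rw [hxi, hx₀, mul_one, eq_div_iff (diag_ne_zero R hb).2] at hcx
    have hF := hconj _ hb u₀ hu₀
    rw [← hi, hpow] at hF
    have hF0 : ψ u₀ 1 0 = 0 := by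
      by_contra hne
      have hd2 : (i : k) = R (σ * g₀) 1 1 ^ 2 := mul_right_cancel₀ hne hF
      refine hsq i ?_
      rw [← hdet', ← hcx]
      rw [hd2]
      ring
    intro u hu
    obtain ⟨j, rfl⟩ := exists_pow_eq hinj hu₀ hx₀ hcard hu
    rw [hpow, hF0, mul_zero]
  · -- the torus is large
    obtain ⟨g, hgb, hgdet, t, ht, hbound, hpow, hord⟩ :=
      exists_torus_gen R hinj hsplit hirr hp2 hu₀ hx₀
    obtain ⟨hq2, -, hmul, hsq⟩ :=
      unipEntries_field hinj hp2 hu₀ hx₀ hcard hgb ht hbound hpow hord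
    intro u hu
    classical
    let φ : k → k := fun c => if h : c ∈ unipEntries R then ψ h.choose 1 0 else 0
    have hφ : ∀ v ∈ unip R, φ (R v 0 1) = ψ v 1 0 := by
      intro v hv
      have hv' : R v 0 1 ∈ unipEntries R := ⟨v, hv, rfl⟩
      simp only [φ, dif_pos hv']
      rw [eq_of_entry R hinj hv'.choose_spec.1 hv hv'.choose_spec.2]
    have hφadd : ∀ a ∈ unipEntries R, ∀ b ∈ unipEntries R, φ (a + b) = φ a + φ b := by
      rintro _ ⟨v, hv, rfl⟩ _ ⟨w, hw, rfl⟩
      rw [← entry_mul R hv hw, hφ _ ((unip R).mul_mem hv hw), hφ _ hv, hφ _ hw, hadd v hv]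
    have hφsq : ∀ a ∈ unipEntries R, a ≠ 0 → ∀ x ∈ unipEntries R,
        φ (a ^ 2 * x) * a ^ 2 = φ x := by
      rintro a ha ha0 _ ⟨v, hv, rfl⟩
      obtain ⟨i, hi⟩ := hsq a ha ha0
      have hgi : g ^ i ∈ borel R := (borel R).pow_mem hgb i
      have hdiag : ∀ j : ℕ, R (g ^ j) 0 0 = R g 0 0 ^ j ∧ R (g ^ j) 1 1 = R g 1 1 ^ j := by
        intro j
        induction j with
        | zero => simp
        | succ j ih =>
          have hbj : R (g ^ j) 1 0 = 0 := (borel R).pow_mem hgb j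
          rw [pow_succ g, rep_mul_apply, rep_mul_apply]
          simp [ih.1, ih.2, mem_borel R |>.mp hgb, hbj, pow_succ]
      obtain ⟨h1, h2⟩ := conj_unip R hgi hv
      have h3 : a ^ 2 * R v 0 1 = R (g ^ i * v * (g ^ i)⁻¹) 0 1 := by
        rw [h2, (hdiag i).1, (hdiag i).2, ← div_pow, hi]
      rw [h3, hφ _ h1, hφ _ hv, hconj _ hgi v hv, ← hi, (hdiag i).2]
      have e : R g 1 1 ^ 2 * (R g 0 0 / R g 1 1) = 1 := by
        rw [← hgdet, det_of_upper R hgb]
        field_simp [(diag_ne_zero R hgb).2]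
      rw [mul_right_comm, ← pow_mul, mul_comm i, pow_mul, ← mul_pow, e, one_pow, one_mul]
    have h1 : (1 : k) ∈ unipEntries R := ⟨u₀, hu₀, hx₀⟩
    suffices hz : φ 1 = 0 by
      rw [← hφ u hu]
      set a := R u 0 1
      have ha : a ∈ unipEntries R := ⟨u, hu, rfl⟩
      -- `2 a` is a combination of squares
      have hs : ∀ c ∈ unipEntries R, φ (c ^ 2) = 0 := by
        intro c hc
        by_cases hc0 : c = 0
        · subst hc0
          have := hφadd 0 (unipEntries R).zero_mem 0 (unipEntries R).zero_mem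
          rw [add_zero] at this
          rw [show (0 : k) ^ 2 = 0 by ring]
          exact left_eq_add.mp this
        · have := hφsq c hc hc0 1 h1
          rw [mul_one, hz] at this
          exact (mul_eq_zero.mp this).resolve_right (pow_ne_zero _ hc0)
      have ha1 : a + 1 ∈ unipEntries R := (unipEntries R).add_mem ha h1
      have hm2 : ∀ c ∈ unipEntries R, c ^ 2 ∈ unipEntries R := fun c hc => by
        rw [pow_two]; exact hmul c hc c hc
      have e2 : φ ((a + 1) ^ 2) = φ (a ^ 2) + φ a + φ a + φ 1 := by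
        rw [show (a + 1) ^ 2 = a ^ 2 + a + a + 1 by ring,
          hφadd _ ((unipEntries R).add_mem ((unipEntries R).add_mem (hm2 a ha) ha) ha) _ h1,
          hφadd _ ((unipEntries R).add_mem (hm2 a ha) ha) _ ha, hφadd _ (hm2 a ha) _ ha]
      rw [hs _ ha1, hs _ ha, hz] at e2
      have h2 : (2 : k) ≠ 0 := fun h => hp2 <| by
        have := (CharP.cast_eq_zero_iff k p 2).mp (by exact_mod_cast h)
        exact (Nat.prime_dvd_prime_iff_eq hp Nat.prime_two).mp this
      exact (mul_eq_zero.mp (show (2 : k) * φ a = 0 by linear_combination -e2)).resolve_left h2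
    -- six roots at most
    by_contra hne
    set P : k[X] := (X ^ 2 + 1) * ((X ^ 2 - 1) ^ 2 - X ^ 2) with hP
    have hroots : ∀ a ∈ unipEntries R, a ≠ 0 → a ≠ 1 → a ≠ -1 → P.eval a = 0 := by
      intro a ha ha0 ha1 ha1'
      have hp1 : a + 1 ∈ unipEntries R := (unipEntries R).add_mem ha h1
      have hm1 : a - 1 ∈ unipEntries R := (unipEntries R).sub_mem ha h1
      have hm2 : ∀ c ∈ unipEntries R, c ^ 2 ∈ unipEntries R := fun c hc => by
        rw [pow_two]; exact hmul c hc c hc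
      have n1 : a + 1 ≠ 0 := fun h => ha1' (eq_neg_of_add_eq_zero_left h)
      have n2 : a - 1 ≠ 0 := sub_ne_zero.mpr ha1
      have q0 := hφsq a ha ha0 1 h1
      have q1 := hφsq _ hp1 n1 1 h1
      have q2 := hφsq _ hm1 n2 1 h1
      rw [mul_one] at q0 q1 q2
      have e : φ ((a + 1) ^ 2) + φ ((a - 1) ^ 2) = φ (a ^ 2) + φ (a ^ 2) + φ 1 + φ 1 := by
        rw [← hφadd _ (hm2 _ hp1) _ (hm2 _ hm1),
          show (a + 1) ^ 2 + (a - 1) ^ 2 = a ^ 2 + a ^ 2 + 1 + 1 by ring,
          hφadd _ ((unipEntries R).add_mem ((unipEntries R).add_mem (hm2 a ha) (hm2 a ha)) h1) _ h1,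
          hφadd _ ((unipEntries R).add_mem (hm2 a ha) (hm2 a ha)) _ h1,
          hφadd _ (hm2 a ha) _ (hm2 a ha)]
      have key : φ 1 * (2 * P.eval a) = 0 := by
        simp only [hP, eval_mul, eval_add, eval_sub, eval_pow, eval_X, eval_one]
        linear_combination (-(a ^ 2 * (a - 1) ^ 2 * (a + 1) ^ 2)) * e
          + a ^ 2 * (a - 1) ^ 2 * q1 + a ^ 2 * (a + 1) ^ 2 * q2
          - 2 * (a - 1) ^ 2 * (a + 1) ^ 2 * q0
      have h2 : (2 : k) ≠ 0 := fun h => hp2 <| by
        have := (CharP.cast_eq_zero_iff k p 2).mp (by exact_mod_cast h)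
        exact (Nat.prime_dvd_prime_iff_eq hp Nat.prime_two).mp this
      simpa [hne, h2] using key
    have hPdeg : P.natDegree ≤ 6 := by rw [hP]; compute_degree
    have hP0 : P ≠ 0 := fun h => by
      have := congrArg (eval 0) h
      simp [hP] at this
    letI := Fintype.ofFinite k
    set s : Finset k := Finset.univ.filter (· ∈ unipEntries R)
    have hs : s.card = Nat.card (unip R) := by
      rw [← card_unipEntries hinj, Nat.card_eq_fintype_card, ← Fintype.card_subtype]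
    have hsub : s ⊆ P.roots.toFinset ∪ {0, 1, -1} := by
      intro a ha
      have ha' : a ∈ unipEntries R := (Finset.mem_filter.mp ha).2
      by_cases h : a = 0 ∨ a = 1 ∨ a = -1
      · exact Finset.mem_union_right _ (by simpa using h)
      · obtain ⟨h0, h1, h1'⟩ : a ≠ 0 ∧ a ≠ 1 ∧ a ≠ -1 := by tauto
        exact Finset.mem_union_left _ (by
          rw [Multiset.mem_toFinset, mem_roots hP0]
          exact hroots a ha' h0 h1 h1')
    have hle : s.card ≤ 6 + 3 := (Finset.card_le_card hsub).trans <|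
      (Finset.card_union_le _ _).trans <| Nat.add_le_add
        (((Multiset.toFinset_card_le _).trans (card_roots' P)).trans hPdeg) Finset.card_le_three
    have hp5 : 5 ≤ p := by
      have := hp.two_le
      by_contra hcon
      interval_cases p <;> simp_all (config := { decide := true })
    have : 25 ≤ p ^ 2 := by nlinarith
    omega

include hinj hp2 hsplit hirr hu₀ hx₀ in
/-- A cocycle is a coboundary on the unipotent elements. -/
theorem exists_coboundary_unip (hψ : IsTwCocycle R ψ)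
    (hdet : ∃ g : G, ∃ d : ℕ, (R g).det = d ∧ ∀ a : ℕ, (a : k) ^ 2 ≠ d) :
    ∃ m : Matrix (Fin 2) (Fin 2) k, m.trace = 0 ∧ ∀ u ∈ unip R, ψ u = coboundary R m u := by
  have hp : p.Prime := Fact.out
  have h2 : (2 : k) ≠ 0 := fun h => hp2 <| by
    have := (CharP.cast_eq_zero_iff k p 2).mp (by exact_mod_cast h)
    exact (Nat.prime_dvd_prime_iff_eq hp Nat.prime_two).mp this
  have hlow := fun {φ} (h : IsTwCocycle R φ) =>
    lower_eq_zero (ψ := φ) hinj hp2 hsplit hirr hu₀ hx₀ h hdet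
  by_cases hcard : Nat.card (unip R) = p
  · -- cyclic: correct at the generator
    set m : Matrix (Fin 2) (Fin 2) k :=
      !![-(ψ u₀ 0 1 + ψ u₀ 0 0) / 2, 0; ψ u₀ 0 0, (ψ u₀ 0 1 + ψ u₀ 0 0) / 2] with hm
    have hmt : m.trace = 0 := by simp [hm, Matrix.trace_fin_two]; ring
    have hm11 : m 1 1 = -m 0 0 := by simp [hm]; ring
    refine ⟨m, hmt, fun u hu => ?_⟩
    have hφ := isTwCocycle_sub_coboundary hψ hmt
    have h0 : ψ u₀ - coboundary R m u₀ = 0 := by
      refine hφ.eq_zero_of_entries ?_ ?_ (hlow hφ u₀ hu₀)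
      · show ψ u₀ 0 0 - coboundary R m u₀ 0 0 = 0
        rw [coboundary_diag hu₀.1, hu₀.2.1, hu₀.2.2, hx₀]
        simp [hm]
      · show ψ u₀ 0 1 - coboundary R m u₀ 0 1 = 0
        rw [coboundary_upper hu₀.1 hm11, hu₀.2.1, hx₀]
        simp [hm]
        field_simp
        ring
    obtain ⟨i, rfl⟩ := exists_pow_eq hinj hu₀ hx₀ hcard hu
    refine sub_eq_zero.mp ?_
    induction i with
    | zero => simpa using hφ.map_one
    | succ i ih =>
      have := hφ.map_mul (u₀ ^ i) u₀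
      rw [pow_succ, this, ih ((unip R).pow_mem hu₀ i), h0, adAct_zero, add_zero]
  -- more than `p`
  obtain ⟨g, hgb, hgdet, t, ht, hbound, hpow, hord⟩ :=
    exists_torus_gen R hinj hsplit hirr hp2 hu₀ hx₀
  obtain ⟨hq2, htq, hmul, hsq⟩ :=
    unipEntries_field hinj hp2 hu₀ hx₀ hcard hgb ht hbound hpow hord
  have hgu : R g 1 0 = 0 := hgb
  set a := R g 0 0
  set d := R g 1 1
  have had : a * d = 1 := by rw [← det_of_upper R hgu, hgdet]
  set α := a / d with hαdef
  have hd0 : d ≠ 0 := (diag_ne_zero R hgu).2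
  have ha2 : a ^ 2 = α := by
    rw [hαdef, eq_div_iff hd0]; linear_combination a * had
  have hα1 : α ≠ 1 := fun h => by
    have h9 : 9 ≤ Nat.card (unip R) := le_trans
      (le_trans (by norm_num) (Nat.pow_le_pow_left
        (show 3 ≤ p by have := hp.two_le; omega) 2)) hq2
    exact hord 1 one_pos (by omega) (by rw [pow_one]; exact h)
  have hd1 : d ^ 2 - 1 ≠ 0 := fun h => hα1 (by
    rw [← ha2]; linear_combination (a * d + 1) * had - a ^ 2 * h)
  set m₁ : Matrix (Fin 2) (Fin 2) k := !![0, 0; ψ g 1 0 / (d ^ 2 - 1), 0] with hm₁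
  have hm₁t : m₁.trace = 0 := by simp [hm₁, Matrix.trace_fin_two]
  have hφ := isTwCocycle_sub_coboundary hψ hm₁t
  set φ := fun σ => ψ σ - coboundary R m₁ σ
  have hgf : φ g 1 0 = 0 := by
    show ψ g 1 0 - coboundary R m₁ g 1 0 = 0
    rw [coboundary_lower hgu, sub_eq_zero]
    simp [hm₁]
    field_simp
    rfl
  have hlow' := hlow hφ
  have hH : ∀ u ∈ unip R, φ (g * u * g⁻¹) 0 0 = φ u 0 0 := by
    intro u hu
    obtain ⟨hu', -⟩ := conj_unip R hgb hu
    have h := hφ.diag_mul hgu u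
    have h' := hφ.diag_mul hu'.1 g
    rw [inv_mul_cancel_right, h, had, hu'.2.1, hu'.2.2, hgf, hlow' u hu] at h'
    linear_combination -h'
  classical
  let H : k → k := fun c => if h : c ∈ unipEntries R then φ h.choose 0 0 else 0
  have hHdef : ∀ v ∈ unip R, H (R v 0 1) = φ v 0 0 := by
    intro v hv
    have hv' : R v 0 1 ∈ unipEntries R := ⟨v, hv, rfl⟩
    simp only [H, dif_pos hv']
    rw [eq_of_entry R hinj hv'.choose_spec.1 hv hv'.choose_spec.2]
  have hHadd : ∀ b ∈ unipEntries R, ∀ c ∈ unipEntries R, H (b + c) = H b + H c := by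
    rintro _ ⟨v, hv, rfl⟩ _ ⟨w, hw, rfl⟩
    rw [← entry_mul R hv hw, hHdef _ ((unip R).mul_mem hv hw), hHdef _ hv, hHdef _ hw,
      hφ.diag_mul hv.1, hv.2.1, hv.2.2, hlow' w hw]
    ring
  have hαmem : α ∈ unipEntries R := by
    simpa using mul_entry_mem hgb (⟨u₀, hu₀, hx₀⟩ : (1 : k) ∈ unipEntries R)
  have h1 : (1 : k) ∈ unipEntries R := ⟨u₀, hu₀, hx₀⟩
  have hαsub : α - 1 ∈ unipEntries R := (unipEntries R).sub_mem hαmem h1
  have hH0 : ∀ u ∈ unip R, φ u 0 0 = 0 := by
    intro u hu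
    rw [← hHdef u hu]
    -- write the entry as a multiple of `α - 1`
    let f : unipEntries R → unipEntries R := fun c => ⟨(α - 1) * c.1, hmul _ hαsub _ c.2⟩
    have hf : Function.Injective f := fun b c h =>
      Subtype.ext (mul_left_cancel₀ (sub_ne_zero.mpr hα1) (congrArg Subtype.val h))
    obtain ⟨⟨c, v, hv, rfl⟩, hc⟩ := Finite.surjective_of_injective hf ⟨R u 0 1, u, hu, rfl⟩
    have hc' : (α - 1) * R v 0 1 = R u 0 1 := congrArg Subtype.val hc
    have e : H ((α - 1) * R v 0 1 + R v 0 1) = H ((α - 1) * R v 0 1) + H (R v 0 1) :=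
      hHadd _ (hmul _ hαsub _ ⟨v, hv, rfl⟩) _ ⟨v, hv, rfl⟩
    rw [show (α - 1) * R v 0 1 + R v 0 1 = R g 0 0 / R g 1 1 * R v 0 1 by rw [hαdef]; ring,
      ← (conj_unip R hgb hv).2, hHdef _ (conj_unip R hgb hv).1, hH v hv, hHdef _ hv] at e
    rw [← hc']
    linear_combination -e
  let E : k → k := fun c => if h : c ∈ unipEntries R then φ h.choose 0 1 else 0
  have hEdef : ∀ v ∈ unip R, E (R v 0 1) = φ v 0 1 := by
    intro v hv
    have hv' : R v 0 1 ∈ unipEntries R := ⟨v, hv, rfl⟩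
    simp only [E, dif_pos hv']
    rw [eq_of_entry R hinj hv'.choose_spec.1 hv hv'.choose_spec.2]
  have hEadd : ∀ b ∈ unipEntries R, ∀ c ∈ unipEntries R, E (b + c) = E b + E c := by
    rintro _ ⟨v, hv, rfl⟩ _ ⟨w, hw, rfl⟩
    rw [← entry_mul R hv hw, hEdef _ ((unip R).mul_mem hv hw), hEdef _ hv, hEdef _ hw,
      hφ.upper_mul hv.1, hv.2.1, hlow' w hw, hH0 w hw]
    ring
  have hEα : ∀ x ∈ unipEntries R, E (α * x) = α * E x + 2 * α * x * φ g 0 0 := by
    rintro _ ⟨v, hv, rfl⟩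
    obtain ⟨hv', hx'⟩ := conj_unip R hgb hv
    have h := hφ.upper_mul hgu v
    have h' := hφ.upper_mul hv'.1 g
    rw [inv_mul_cancel_right, h, hv'.2.1, hgf, hlow' v hv, hH0 v hv, hx'] at h'
    change _ = _ + _ - 2 * 1 * (α * R v 0 1) * φ g 0 0 - _ at h'
    have hE1 : E (α * R v 0 1) = φ (g * v * g⁻¹) 0 1 := by
      rw [← hEdef _ hv', hx']
    rw [hE1, hEdef _ hv]
    linear_combination -h' + φ v 0 1 * ha2
  have hαpow : ∀ i : ℕ, α ^ i ∈ unipEntries R := by
    intro i
    induction i with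
    | zero => simpa using h1
    | succ i ih => rw [pow_succ]; exact hmul _ ih _ hαmem
  have hEpow : ∀ i : ℕ, ∀ x ∈ unipEntries R,
      E (α ^ i * x) = α ^ i * E x + 2 * (i : k) * α ^ i * x * φ g 0 0 := by
    intro i
    induction i with
    | zero => intro x _; simp
    | succ i ih =>
      intro x hx
      rw [pow_succ, mul_assoc, ih _ (hmul _ hαmem _ hx), hEα x hx]
      push_cast
      ring
  have hg0 : φ g 0 0 = 0 := by
    have h := hEpow t 1 h1
    rw [hpow, one_mul, one_mul, mul_one, mul_one, left_eq_add] at h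
    have htk : (t : k) ≠ 0 := fun htk => by
      have hpt := (CharP.cast_eq_zero_iff k p t).mp htk
      have hpq : p ∣ Nat.card (unip R) - 1 := hpt.trans htq
      have hpq' : p ∣ Nat.card (unip R) := by
        obtain ⟨m, hm⟩ := (IsPGroup.iff_card (p := p) (G := unip R)).mp (isPGroup_unip R hinj)
        rcases m with - | m
        · rw [hm, pow_zero] at hq2; nlinarith [hp.two_le]
        · rw [hm]; exact dvd_pow_self p (Nat.succ_ne_zero m)
      have := Nat.dvd_sub hpq' hpq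
      rw [show Nat.card (unip R) - (Nat.card (unip R) - 1) = 1 by
        have := Nat.card_pos (α := unip R); omega] at this
      exact hp.one_lt.ne' (Nat.dvd_one.mp this)
    exact (mul_eq_zero.mp h).resolve_left (mul_ne_zero h2 htk)
  have hE0 : E 0 = 0 := by
    have := hEadd 0 (unipEntries R).zero_mem 0 (unipEntries R).zero_mem
    rw [add_zero] at this
    exact left_eq_add.mp this
  have hEsq : ∀ b ∈ unipEntries R, ∀ x ∈ unipEntries R, E (b ^ 2 * x) = b ^ 2 * E x := by
    intro b hb x hx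
    by_cases hb0 : b = 0
    · subst hb0; simp [hE0]
    · obtain ⟨i, hi⟩ := hsq b hb hb0
      rw [← hi, hEpow i x hx, hg0, mul_zero, add_zero]
  have hlin : ∀ c ∈ unipEntries R, E c = c * E 1 := by
    intro c hc
    have hc1 : c + 1 ∈ unipEntries R := (unipEntries R).add_mem hc h1
    have hc2 : c ^ 2 ∈ unipEntries R := by rw [pow_two]; exact hmul c hc c hc
    have e1 := hEsq c hc 1 h1
    have e2 := hEsq _ hc1 1 h1
    rw [mul_one] at e1 e2
    rw [show (c + 1) ^ 2 = c ^ 2 + c + c + 1 by ring,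
      hEadd _ ((unipEntries R).add_mem ((unipEntries R).add_mem hc2 hc) hc) _ h1,
      hEadd _ ((unipEntries R).add_mem hc2 hc) _ hc, hEadd _ hc2 _ hc, e1] at e2
    exact mul_left_cancel₀ h2 (by linear_combination e2)
  set m₂ : Matrix (Fin 2) (Fin 2) k := !![-(E 1) / 2, 0; 0, E 1 / 2] with hm₂
  have hm₂t : m₂.trace = 0 := by simp [hm₂, Matrix.trace_fin_two]; ring
  have hm₂11 : m₂ 1 1 = -m₂ 0 0 := by simp [hm₂]; ring
  refine ⟨m₁ + m₂, by rw [Matrix.trace_add, hm₁t, hm₂t, add_zero], fun u hu => ?_⟩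
  have hχ := isTwCocycle_sub_coboundary hφ hm₂t
  have h0 : φ u - coboundary R m₂ u = 0 := by
    refine hχ.eq_zero_of_entries ?_ ?_ (hlow hχ u hu)
    · show φ u 0 0 - coboundary R m₂ u 0 0 = 0
      rw [coboundary_diag hu.1, hH0 u hu, hu.2.1, hu.2.2]
      simp [hm₂]
    · show φ u 0 1 - coboundary R m₂ u 0 1 = 0
      rw [coboundary_upper hu.1 hm₂11, ← hEdef u hu, hlin _ ⟨u, hu, rfl⟩, hu.2.1]
      simp [hm₂]
      field_simp
      ring
  have e : coboundary R (m₁ + m₂) u = coboundary R m₁ u + coboundary R m₂ u := by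
    simp only [coboundary, adAct_add]; abel
  rw [e]
  exact sub_eq_zero.mp (by rw [← h0]; simp only [φ]; abel)

end Fermat.Agent.TW
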