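/-
TW1: the first cohomology of the trace-zero matrices twisted by the determinant vanishes for a finite
irreducible group whose determinant is not a square of the prime field.
-/
import Fermat.Agent.TW.Unip

set_option autoImplicit false
set_option linter.unusedSectionVars false
set_option linter.style.haveILetI false

noncomputable section

open Matrix Polynomial

namespace Fermat.Agent.TW

variable {p : ℕ} [Fact p.Prime] {k : Type*} [Field k] [CharP k p] {G : Type*} [Group G]
  {R : G →* Matrix (Fin 2) (Fin 2) k} {ψ : G → Matrix (Fin 2) (Fin 2) k}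

/-- A cocycle vanishing on a subgroup of index prime to `p` is a coboundary. -/
theorem isTwCoboundary_of_subgroup [Finite G] (hψ : IsTwCocycle R ψ) (P : Subgroup G)
    (hP : ∀ u ∈ P, ψ u = 0) (hidx : ¬ p ∣ P.index) : IsTwCoboundary R ψ := by
  letI := Fintype.ofFinite (G ⧸ P)
  let f : G ⧸ P → Matrix (Fin 2) (Fin 2) k := Quotient.lift ψ fun a b hab => by
    have hab' : a⁻¹ * b ∈ P := QuotientGroup.leftRel_apply.mp hab
    have h := hψ.map_mul a (a⁻¹ * b)
    rw [mul_inv_cancel_left, hP _ hab', adAct_zero, add_zero] at h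
    exact h.symm
  have hf : ∀ (σ : G) (c : G ⧸ P), f (σ • c) = ψ σ + adAct R σ (f c) := by
    intro σ c
    induction c using QuotientGroup.induction_on with
    | _ τ => exact hψ.map_mul σ τ
  set S := ∑ c, f c
  set N := P.index
  have hN : (N : k) ≠ 0 := fun h => hidx ((CharP.cast_eq_zero_iff k p N).mp h)
  have hsum : ∀ σ, adAct R σ S = S - (N : k) • ψ σ := by
    intro σ
    have hadd : adAct R σ S = ∑ c, adAct R σ (f c) :=
      map_sum (AddMonoidHom.mk' (adAct R σ) (adAct_add R σ)) f Finset.univ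
    have h2 : S = ∑ c, f (σ • c) := (Equiv.sum_comp (MulAction.toPerm σ) f).symm
    rw [hadd, h2]
    simp only [hf, Finset.sum_add_distrib, Finset.sum_const, Finset.card_univ]
    rw [← Nat.cast_smul_eq_nsmul k, ← Nat.card_eq_fintype_card]
    exact (add_sub_cancel_left _ _).symm
  refine ⟨(-(N : k)⁻¹) • S, ?_, fun σ => ?_⟩
  · rw [Matrix.trace_smul, Matrix.trace_sum, Finset.sum_eq_zero, smul_zero]
    intro c _
    induction c using QuotientGroup.induction_on with
    | _ τ => exact hψ.trace_eq_zero τ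
  · rw [adAct_smul, ← smul_sub, hsum, sub_sub_cancel_left, smul_neg, neg_smul, neg_neg, smul_smul,
      inv_mul_cancel₀ hN, one_smul]

/-- Change of basis. -/
theorem exists_normal_form {A : Matrix (Fin 2) (Fin 2) k} (hA : A ≠ 1)
    (hA2 : (A - 1) * (A - 1) = 0) :
    ∃ B B' : Matrix (Fin 2) (Fin 2) k, B * B' = 1 ∧ B' * B = 1 ∧ B' * A * B = !![1, 1; 0, 1] := by
  obtain ⟨w, hw⟩ : ∃ w, (A - 1) *ᵥ w ≠ 0 := by
    by_contra hcon
    refine hA (sub_eq_zero.mp (Matrix.ext fun i j => ?_))
    have h := congrFun (not_exists_not.mp hcon (Pi.single j 1)) i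
    simpa using h
  set e := (A - 1) *ᵥ w with he
  have hAe : A *ᵥ e = e := by
    have h : (A - 1) *ᵥ e = 0 := by rw [he, Matrix.mulVec_mulVec, hA2, Matrix.zero_mulVec]
    rwa [Matrix.sub_mulVec, Matrix.one_mulVec, sub_eq_zero] at h
  have hAw : A *ᵥ w = e + w := by rw [he, Matrix.sub_mulVec, Matrix.one_mulVec, sub_add_cancel]
  set B : Matrix (Fin 2) (Fin 2) k := !![e 0, w 0; e 1, w 1] with hB
  have hdet : IsUnit B.det := by
    refine isUnit_iff_ne_zero.mpr fun h0 => ?_
    rw [hB, Matrix.det_fin_two_of] at h0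
    have hw0 : w ≠ 0 := fun h => hw (by rw [he, h, Matrix.mulVec_zero])
    obtain ⟨a, ha, hae⟩ := exists_smul_eq_of_cross hw hw0 (by linear_combination h0)
    exact hw (by
      have : A *ᵥ w = w := by rw [← hae, Matrix.mulVec_smul, hAe]
      rwa [hAw, add_eq_right] at this)
  have hAB : A * B = B * !![1, 1; 0, 1] := by
    ext i j
    have e0 : A i 0 * e 0 + A i 1 * e 1 = e i := by
      rw [← mulVec_fin_two, hAe]
    have w0 : A i 0 * w 0 + A i 1 * w 1 = e i + w i := by
      rw [← mulVec_fin_two, hAw]; rfl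
    fin_cases j <;> fin_cases i <;> simp [hB, Matrix.mul_apply, Fin.sum_univ_two] at e0 w0 ⊢ <;>
      first | exact e0 | exact w0
  refine ⟨B, B⁻¹, Matrix.mul_nonsing_inv B hdet, Matrix.nonsing_inv_mul B hdet, ?_⟩
  rw [mul_assoc, hAB, ← mul_assoc, Matrix.nonsing_inv_mul B hdet, one_mul]

theorem isTwCoboundary_of_finite [Finite G] [Finite k] (hinj : Function.Injective R) (hp2 : p ≠ 2)
    (hsplit : ∀ g, ∃ α β : k, (R g).charpoly = (X - C α) * (X - C β))
    (hirr : ∀ v : Fin 2 → k, (∀ g, ∃ a : k, R g *ᵥ v = a • v) → v = 0)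
    (hdet : ∃ g : G, ∃ d : ℕ, (R g).det = d ∧ ∀ a : ℕ, (a : k) ^ 2 ≠ d)
    (hψ : IsTwCocycle R ψ) : IsTwCoboundary R ψ := by
  have hp : p.Prime := Fact.out
  by_cases hdvd : p ∣ Nat.card G
  swap
  · exact isTwCoboundary_of_subgroup hψ ⊥
      (fun u hu => by rw [Subgroup.mem_bot.mp hu, hψ.map_one]) (by rwa [Subgroup.index_bot])
  obtain ⟨u, hu⟩ := exists_prime_orderOf_dvd_card' p hdvd
  have hu1 : R u ≠ 1 := fun h => by
    have : u = 1 := hinj (by rw [h, map_one])
    rw [this, orderOf_one] at hu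
    exact hp.one_lt.ne' hu.symm
  have hsq : (R u - 1) * (R u - 1) = 0 := by
    have h0 : (R u - 1) ^ p = 0 := by
      have h := (Commute.one_left (R u - 1)).add_pow_prime_eq hp
      rw [add_sub_cancel, ← map_pow, one_pow, CharP.cast_eq_zero (Matrix (Fin 2) (Fin 2) k) p,
        zero_mul, zero_mul, zero_mul, add_zero] at h
      rw [show u ^ p = 1 by rw [← hu, pow_orderOf_eq_one], map_one] at h
      exact left_eq_add.mp h
    have hnil : IsNilpotent (R u - 1) := ⟨p, h0⟩
    have h1 := Matrix.isNilpotent_charpoly_sub_pow_of_isNilpotent hnil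
    have h2 : (R u - 1).charpoly = X ^ 2 := sub_eq_zero.mp (IsReduced.eq_zero _ h1)
    have h3 := Matrix.aeval_self_charpoly (R u - 1)
    rwa [h2, map_pow, aeval_X, pow_two] at h3
  obtain ⟨B, B', hBB', hB'B, hBu⟩ := exists_normal_form hu1 hsq
  let R' : G →* Matrix (Fin 2) (Fin 2) k :=
    { toFun := fun g => B' * R g * B
      map_one' := by rw [map_one, mul_one, hB'B]
      map_mul' := fun g h => by
        rw [map_mul]
        calc B' * (R g * R h) * B = B' * R g * (B * B') * R h * B := by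
              rw [hBB']; simp [mul_assoc]
          _ = _ := by simp only [mul_assoc] }
  have hR' : ∀ g, R' g = B' * R g * B := fun _ => rfl
  have hdetR : ∀ g, (R' g).det = (R g).det := fun g => by
    rw [hR', Matrix.det_mul, Matrix.det_mul, mul_comm, ← mul_assoc, ← Matrix.det_mul, hBB',
      Matrix.det_one, one_mul]
  have hback : ∀ x : Matrix (Fin 2) (Fin 2) k, B * (B' * x * B) * B' = x := fun x => by
    calc B * (B' * x * B) * B' = (B * B') * x * (B * B') := by simp only [mul_assoc]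
      _ = x := by rw [hBB', one_mul, mul_one]
  have hact : ∀ g x, adAct R' g (B' * x * B) = B' * adAct R g x * B := fun g x => by
    rw [adAct, adAct, hdetR, Matrix.mul_smul, Matrix.smul_mul, hR', hR']
    refine congrArg ((R g).det • ·) ?_
    calc B' * R g * B * (B' * x * B) * (B' * R g⁻¹ * B)
        = B' * R g * (B * B') * x * (B * B') * R g⁻¹ * B := by simp only [mul_assoc]
      _ = _ := by rw [hBB']; simp [mul_assoc]
  have hinj' : Function.Injective R' := fun g h e => hinj (by
    rw [← hback (R g), ← hback (R h), ← hR', ← hR', e])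
  have hsplit' : ∀ g, ∃ α β : k, (R' g).charpoly = (X - C α) * (X - C β) := fun g => by
    obtain ⟨α, β, h⟩ := hsplit g
    refine ⟨α, β, ?_⟩
    rw [← h, hR', Matrix.charpoly_mul_comm, ← mul_assoc, hBB', one_mul]
  have hirr' : ∀ v : Fin 2 → k, (∀ g, ∃ a : k, R' g *ᵥ v = a • v) → v = 0 := by
    intro v hv
    have h := hirr (B *ᵥ v) fun g => by
      obtain ⟨a, ha⟩ := hv g
      refine ⟨a, ?_⟩
      calc R g *ᵥ (B *ᵥ v) = B *ᵥ (R' g *ᵥ v) := by
            simp only [Matrix.mulVec_mulVec, hR', ← mul_assoc]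
            rw [hBB', one_mul]
        _ = a • (B *ᵥ v) := by rw [ha, Matrix.mulVec_smul]
    rw [← Matrix.one_mulVec v, ← hB'B, ← Matrix.mulVec_mulVec, h, Matrix.mulVec_zero]
  have hdet' : ∃ g : G, ∃ d : ℕ, (R' g).det = d ∧ ∀ a : ℕ, (a : k) ^ 2 ≠ d := by
    obtain ⟨g, d, hd, h⟩ := hdet
    exact ⟨g, d, by rw [hdetR, hd], h⟩
  have hψ' : IsTwCocycle R' fun g => B' * ψ g * B :=
    { trace_eq_zero := fun g => by
        rw [Matrix.trace_mul_cycle, hBB', one_mul, hψ.trace_eq_zero]
      map_mul := fun g h => by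
        rw [hact, hψ.map_mul, mul_add, add_mul] }
  have hu₀ : u ∈ unip R' := by
    refine ⟨?_, ?_, ?_⟩ <;> simp [hR', hBu]
  have hx₀ : R' u 0 1 = 1 := by simp [hR', hBu]
  obtain ⟨m, hm, hmP⟩ := exists_coboundary_unip hinj' hp2 hsplit' hirr' hu₀ hx₀ hψ' hdet'
  have hu₁ : u ≠ 1 := fun h => hu1 (by rw [h, map_one])
  obtain ⟨m', hm', hm'g⟩ := isTwCoboundary_of_sub R' hm
    (isTwCoboundary_of_subgroup (isTwCocycle_sub_coboundary hψ' hm) (unip R')
      (fun v hv => sub_eq_zero.mpr (hmP v hv)) (not_dvd_index_unip R' hinj' hu₀ hu₁))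
  refine ⟨B * m' * B', by rw [Matrix.trace_mul_cycle, hB'B, one_mul, hm'], fun g => ?_⟩
  have h := hm'g g
  have hm'' : B' * (B * m' * B') * B = m' := by
    calc B' * (B * m' * B') * B = (B' * B) * m' * (B' * B) := by simp only [mul_assoc]
      _ = m' := by rw [hB'B, one_mul, mul_one]
  rw [← hm'', hact] at h
  have h2 := congrArg (fun x => B * x * B') h
  simp only [mul_sub, sub_mul, hback] at h2
  exact h2

end Fermat.Agent.TW
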