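/-
TW1: selection of Taylor-Wiles primes for a cohomology class of the twisted adjoint.
-/
import Fermat.Agent.TW.Vanish
import Fermat.Agent.TW.Image
import Fermat.Agent.Density.Chebotarev
import Fermat.Agent.GalRep.Cyclo

set_option autoImplicit false
set_option linter.unusedSectionVars false
set_option linter.style.haveILetI false
set_option maxSynthPendingDepth 3

noncomputable section

open Matrix Polynomial

namespace Fermat.Agent.TW

local notation "Γℚ" => (AlgebraicClosure ℚ ≃ₐ[ℚ] AlgebraicClosure ℚ)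

variable (p : ℕ) [Fact p.Prime] {k : Type} [Field k] [Finite k] [CharP k p]

/-- The matrices of a residual representation satisfy the hypotheses. -/
theorem twHyp_toMatrix (hp2 : p ≠ 2) (ρbar : ResidualGaloisRep k)
    (habs : ρbar.IsAbsolutelyIrreducible)
    (hdet : (GaloisRepAdic.ofResidualGaloisRep ρbar).DetIsCyclotomic p)
    (hsplit : ∀ σ : Γℚ, ∃ α β : k, LinearMap.charpoly (ρbar.ρ σ) = (X - C α) * (X - C β))
    (hTW : ∀ (K : Type) [Field K] [Algebra k K] (G : Subgroup Γℚ), G.index = 2 →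
      ∀ V : Submodule K (ρbar.baseChange K).V,
        (∀ σ ∈ G, ∀ x ∈ V, (ρbar.baseChange K).ρ σ x ∈ V) → V = ⊥ ∨ V = ⊤)
    (b : Module.Basis (Fin 2) k ρbar.V) :
    TWHyp p (MonoidHom.comp (LinearMap.toMatrixAlgEquiv b).toMulEquiv.toMonoidHom ρbar.ρ) where
  odd := hp2
  finite_level := by
    obtain ⟨L, hL, h⟩ := ρbar.factorsThroughFiniteLevel
    exact ⟨L, hL, fun σ hσ => by rw [MonoidHom.comp_apply, h σ hσ, map_one]⟩
  det_cyclotomic σ a hσ := by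
    have h := hdet.2 1 σ a (by simpa using hσ)
    rw [pow_one, CharP.cast_eq_zero k p, Ideal.span_singleton_eq_bot.mpr rfl, Ideal.mem_bot,
      sub_eq_zero] at h
    rw [← h]
    exact LinearMap.det_toMatrix b (ρbar.ρ σ)
  split σ := by
    obtain ⟨α, β, h⟩ := hsplit σ
    exact ⟨α, β, (LinearMap.charpoly_toMatrix (ρbar.ρ σ) b).trans h⟩
  irreducible H hH v hv := by
    set bK := Algebra.TensorProduct.basis (AlgebraicClosure k) b with hbK
    set x := bK.equivFun.symm v with hx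
    have hstab : ∀ σ ∈ H, ∀ y ∈ Submodule.span (AlgebraicClosure k) {x},
        (ρbar.baseChange (AlgebraicClosure k)).ρ σ y ∈ Submodule.span (AlgebraicClosure k) {x} := by
      intro σ hσ y hy
      obtain ⟨a, rfl⟩ := Submodule.mem_span_singleton.mp hy
      obtain ⟨c, hc⟩ := hv σ hσ
      rw [map_smul]
      refine Submodule.smul_mem _ a (Submodule.mem_span_singleton.mpr ⟨c, ?_⟩)
      apply bK.equivFun.injective
      rw [map_smul, hx, LinearEquiv.apply_symm_apply, ← hc]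
      have e := LinearMap.toMatrix_mulVec_repr bK bK ((ρbar.ρ σ).baseChange (AlgebraicClosure k)) (bK.equivFun.symm v)
      rw [LinearMap.toMatrix_baseChange] at e
      simp only [← Module.Basis.equivFun_apply, LinearEquiv.apply_symm_apply] at e
      exact e
    have hcases : Submodule.span (AlgebraicClosure k) {x} = ⊥ ∨ Submodule.span (AlgebraicClosure k) {x} = ⊤ := by
      rcases hH with rfl | hH
      · exact habs _ fun σ => hstab σ (Subgroup.mem_top σ)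
      · exact hTW (AlgebraicClosure k) H hH _ hstab
    rcases hcases with h | h
    · rw [Submodule.span_singleton_eq_bot, hx, LinearEquiv.map_eq_zero_iff] at h
      exact h
    · by_cases h0 : x = 0
      · rwa [hx, LinearEquiv.map_eq_zero_iff] at h0
      exfalso
      have h1 := finrank_span_singleton (K := (AlgebraicClosure k)) (v := x) h0
      rw [h, finrank_top, Module.finrank_baseChange, ρbar.finrank_eq] at h1
      omega

omit [Fact p.Prime] [Finite k] [CharP k p] in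
/-- The trace criterion for not being a coboundary at one element. -/
theorem ne_adAct_sub {R : Γℚ →* Matrix (Fin 2) (Fin 2) k} {σ : Γℚ} (hdet : (R σ).det = 1)
    {x : Matrix (Fin 2) (Fin 2) k} (hx : (x * R σ).trace ≠ 0) (m : Matrix (Fin 2) (Fin 2) k) :
    x ≠ adAct R σ m - m :=
  fun h => hx (h ▸ trace_adAct_sub_mul R hdet m)

/-- The elements fixing the roots of unity of a given order. -/
def muFixer (N : ℕ) : Subgroup Γℚ where
  carrier := {σ | ∀ μ : AlgebraicClosure ℚ, μ ^ N = 1 → σ μ = μ}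
  one_mem' _ _ := rfl
  mul_mem' {σ τ} hσ hτ μ hμ := by rw [AlgEquiv.mul_apply, hτ μ hμ, hσ μ hμ]
  inv_mem' {σ} hσ μ hμ := by
    conv_lhs => rw [← hσ μ hμ]
    exact σ.symm_apply_apply μ

instance muFixer_normal (N : ℕ) : (muFixer N).Normal := ⟨fun σ hσ g μ hμ => by
  have h : (g⁻¹ μ) ^ N = 1 := by rw [← map_pow, hμ, map_one]
  rw [AlgEquiv.mul_apply, AlgEquiv.mul_apply, hσ _ h, ← AlgEquiv.mul_apply, mul_inv_cancel,
    AlgEquiv.one_apply]⟩

theorem comm_mem_muFixer (N : ℕ) [NeZero N] (a b : Γℚ) : a * b * a⁻¹ * b⁻¹ ∈ muFixer N := by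
  obtain ⟨ζ, hζ⟩ := HasEnoughRootsOfUnity.exists_primitiveRoot (AlgebraicClosure ℚ) N
  have key : ∀ (a b : Γℚ) (μ : AlgebraicClosure ℚ), μ ^ N = 1 → a (b μ) = b (a μ) := by
    intro a b μ hμ
    obtain ⟨i, -, rfl⟩ := hζ.eq_pow_of_pow_eq_one hμ
    obtain ⟨x, -, hx⟩ := hζ.eq_pow_of_pow_eq_one
      (show (a ζ) ^ N = 1 by rw [← map_pow, hζ.pow_eq_one, map_one])
    obtain ⟨y, -, hy⟩ := hζ.eq_pow_of_pow_eq_one
      (show (b ζ) ^ N = 1 by rw [← map_pow, hζ.pow_eq_one, map_one])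
    simp only [map_pow, ← hx, ← hy, ← pow_mul]
    ring
  intro μ hμ
  have hb : (b⁻¹ μ) ^ N = 1 := by rw [← map_pow, hμ, map_one]
  have hab : (a⁻¹ (b⁻¹ μ)) ^ N = 1 := by rw [← map_pow, hb, map_one]
  simp only [AlgEquiv.mul_apply]
  rw [key a b _ hab, ← AlgEquiv.mul_apply a a⁻¹, mul_inv_cancel, AlgEquiv.one_apply,
    ← AlgEquiv.mul_apply, mul_inv_cancel, AlgEquiv.one_apply]

variable {p}

omit [Finite k] in
theorem det_eq_one_of_mem_muFixer {R : Γℚ →* Matrix (Fin 2) (Fin 2) k} (h : TWHyp p R) {n : ℕ}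
    {σ : Γℚ} (hσ : σ ∈ muFixer (p ^ (n + 1))) : (R σ).det = 1 := by
  rw [h.det_cyclotomic σ 1 fun μ hμ => by
    rw [pow_one]; exact hσ μ (by rw [pow_succ', pow_mul, hμ, one_pow]), Nat.cast_one]

/-- Some determinant is not a square of the prime field. -/
theorem exists_det_nonsquare {R : Γℚ →* Matrix (Fin 2) (Fin 2) k} (h : TWHyp p R) :
    ∃ σ : Γℚ, ∃ d : ℕ, (R σ).det = d ∧ ∀ a : ℕ, (a : k) ^ 2 ≠ d := by
  have hp : p.Prime := Fact.out
  obtain ⟨d, hd⟩ := FiniteField.exists_nonsquare (F := ZMod p)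
    (by rw [ZMod.ringChar_zmod_n]; exact h.odd)
  have hd0 : d ≠ 0 := fun e => hd (e ▸ IsSquare.zero)
  have hcop : d.val.Coprime p := by
    refine (hp.coprime_iff_not_dvd.mpr fun e => hd0 ?_).symm
    rw [← ZMod.natCast_zmod_val d]
    exact (ZMod.natCast_eq_zero_iff _ _).mpr e
  obtain ⟨ζ, hζ⟩ := HasEnoughRootsOfUnity.exists_primitiveRoot (AlgebraicClosure ℚ) p
  have hζ' := hζ.pow_of_coprime d.val hcop
  obtain ⟨σ, hσ⟩ : ∃ σ : Γℚ, σ ζ = ζ ^ d.val := by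
    refine minpoly.exists_algEquiv_of_root' (Algebra.IsAlgebraic.isAlgebraic ζ) ?_
    rw [← Polynomial.cyclotomic_eq_minpoly_rat hζ hp.pos,
      Polynomial.cyclotomic_eq_minpoly_rat hζ' hp.pos]
    exact minpoly.aeval _ _
  refine ⟨σ, d.val, h.det_cyclotomic σ _ fun μ hμ => ?_, fun a ha => hd ⟨(a : ZMod p), ?_⟩⟩
  · obtain ⟨i, -, rfl⟩ := hζ.eq_pow_of_pow_eq_one hμ
    rw [map_pow, hσ, ← pow_mul, ← pow_mul, mul_comm]
  · have e : ((a ^ 2 : ℕ) : k) = (d.val : k) := by rw [Nat.cast_pow]; exact ha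
    rw [CharP.natCast_eq_natCast k p, ← ZMod.natCast_eq_natCast_iff, Nat.cast_pow,
      ZMod.natCast_zmod_val] at e
    rw [← e, pow_two]

/-- A cocycle trivial on the elements acting trivially is a coboundary. -/
theorem isTwCoboundary_of_ker {R : Γℚ →* Matrix (Fin 2) (Fin 2) k} (h : TWHyp p R)
    {ψ : Γℚ → Matrix (Fin 2) (Fin 2) k} (hψ : IsTwCocycle R ψ)
    (hker : ∀ σ, R σ = 1 → ψ σ = 0) : IsTwCoboundary R ψ := by
  classical
  set hU := R.toHomUnits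
  let Gb : Subgroup (Matrix (Fin 2) (Fin 2) k)ˣ := hU.range
  haveI : Finite Gb := Subtype.finite
  let R' : Gb →* Matrix (Fin 2) (Fin 2) k := (Units.coeHom _).comp Gb.subtype
  let lift : Gb → Γℚ := fun g => g.2.choose
  have hlift : ∀ g : Gb, R (lift g) = R' g := fun g => congrArg Units.val g.2.choose_spec
  let ψ' : Gb → Matrix (Fin 2) (Fin 2) k := fun g => ψ (lift g)
  have hwd : ∀ σ τ : Γℚ, R σ = R τ → ψ σ = ψ τ := by
    intro σ τ e
    have h1 : R (σ⁻¹ * τ) = 1 := by rw [map_mul, ← e, rep_inv_mul]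
    have h2 := hψ.map_mul σ (σ⁻¹ * τ)
    rw [mul_inv_cancel_left, hker _ h1, adAct_zero, add_zero] at h2
    exact h2.symm
  have hinv : ∀ g : Gb, R (lift g)⁻¹ = R' g⁻¹ := fun g => by
    have e : hU (lift g)⁻¹ = ((g⁻¹ : Gb) : (Matrix (Fin 2) (Fin 2) k)ˣ) := by
      rw [map_inv]; exact congrArg (·⁻¹) g.2.choose_spec
    exact congrArg Units.val e
  have hact : ∀ (g : Gb) x, adAct R' g x = adAct R (lift g) x := fun g x => by
    rw [adAct, adAct, hlift, hinv]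
  have hψ' : IsTwCocycle R' ψ' :=
    { trace_eq_zero := fun g => hψ.trace_eq_zero _
      map_mul := fun g g' => by
        rw [hact]
        show ψ (lift (g * g')) = _
        rw [hwd (lift (g * g')) (lift g * lift g') (by rw [map_mul, hlift, hlift, hlift, map_mul]),
          hψ.map_mul] }
  have hmk : ∀ σ : Γℚ, R' ⟨hU σ, σ, rfl⟩ = R σ := fun _ => rfl
  obtain ⟨σ₀, d, hd, hsq⟩ := exists_det_nonsquare h
  obtain ⟨m, hm, hm'⟩ := isTwCoboundary_of_finite (R := R') (ψ := ψ') (p := p)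
    (fun g g' e => Subtype.ext (Units.ext e)) h.odd
    (fun g => by obtain ⟨α, β, e⟩ := h.split (lift g); exact ⟨α, β, hlift g ▸ e⟩)
    (fun v hv => no_eigenline h.irreducible v fun σ => by
      obtain ⟨a, ha⟩ := hv ⟨hU σ, σ, rfl⟩
      exact ⟨a, ha⟩)
    ⟨⟨hU σ₀, σ₀, rfl⟩, d, by rw [hmk, hd], hsq⟩ hψ'
  refine ⟨m, hm, fun σ => ?_⟩
  have e := hm' ⟨hU σ, σ, rfl⟩
  have eR : R (lift ⟨hU σ, σ, rfl⟩) = R σ := hlift _
  have eI : R (lift ⟨hU σ, σ, rfl⟩)⁻¹ = R σ⁻¹ := by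
    rw [hinv]
    exact congrArg Units.val (map_inv hU σ).symm
  rw [hact, adAct, eR, eI] at e
  rw [← hwd _ _ eR]
  exact e

omit [Finite k] in
theorem two_ne_zero_of_twHyp {R : Γℚ →* Matrix (Fin 2) (Fin 2) k} (h : TWHyp p R) : (2 : k) ≠ 0 :=
  fun e => h.odd <| (Nat.prime_dvd_prime_iff_eq (Fact.out : p.Prime) Nat.prime_two).mp
    ((CharP.cast_eq_zero_iff k p 2).mp (by exact_mod_cast e))

variable (p)

/-- An element fixing the roots of unity where the class is nonzero modulo `σ - 1`. -/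
theorem exists_twElement {R : Γℚ →* Matrix (Fin 2) (Fin 2) k} (h : TWHyp p R)
    {ψ : Γℚ → Matrix (Fin 2) (Fin 2) k} (hψ : IsTwCocycle R ψ)
    (hne : ¬ IsTwCoboundary R ψ) (n : ℕ) :
    ∃ σ : Γℚ, (∀ μ : AlgebraicClosure ℚ, μ ^ p ^ (n + 1) = 1 → σ μ = μ) ∧
      (R σ).trace ^ 2 ≠ 4 * (R σ).det ∧ (ψ σ * R σ).trace ≠ 0 := by
  have hp : p.Prime := Fact.out
  haveI : NeZero (p ^ (n + 1)) := ⟨pow_ne_zero _ hp.ne_zero⟩
  set T := muFixer (p ^ (n + 1))
  have h2 := two_ne_zero_of_twHyp h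
  have hdet : ∀ σ ∈ T, (R σ).det = 1 := fun σ hσ => det_eq_one_of_mem_muFixer h hσ
  have htriv : ∀ τ, R τ = 1 → ∀ x, adAct R τ x = x := fun τ hτ x => by
    have : R τ⁻¹ = 1 := by simpa [hτ] using rep_inv_mul R τ
    rw [adAct, hτ, this, Matrix.det_one, one_smul, one_mul, mul_one]
  have hconj : ∀ g τ : Γℚ, R τ = 1 → R (g * τ * g⁻¹) = 1 ∧
      ψ (g * τ * g⁻¹) = adAct R g (ψ τ) := by
    intro g τ hτ
    have h1 : R (g * τ * g⁻¹) = 1 := by rw [map_mul, map_mul, hτ, mul_one, rep_mul_inv]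
    exact ⟨h1, hψ.map_conj_of_trivial (htriv _ h1)⟩
  let W : Set (Matrix (Fin 2) (Fin 2) k) := ψ '' {τ | τ ∈ T ∧ R τ = 1}
  obtain ⟨τ, hτ, hτ0⟩ : ∃ τ, (τ ∈ T ∧ R τ = 1) ∧ ψ τ ≠ 0 := by
    by_contra hc
    have hN : ∀ τ, τ ∈ T → R τ = 1 → ψ τ = 0 := fun τ h1 h2 =>
      by_contra fun h3 => hc ⟨τ, ⟨h1, h2⟩, h3⟩
    refine hne (isTwCoboundary_of_ker h hψ fun a ha => by_contra fun ha0 => ?_)
    refine no_stable_line h.irreducible ha0 (hψ.trace_eq_zero a) h2 fun g => ⟨1, ?_⟩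
    rw [one_smul, ← (hconj g a ha).2]
    set y := g * a * g⁻¹ * a⁻¹
    have hy : R y = 1 := by
      rw [map_mul, (hconj g a ha).1, one_mul]
      simpa [ha] using rep_inv_mul R a
    have e := hψ.map_mul y a
    rw [inv_mul_cancel_right, hN y (comm_mem_muFixer _ g a) hy, htriv y hy, zero_add] at e
    exact e
  obtain ⟨σ₀, hσ₀, hdist⟩ := exists_distinct h.irreducible h2 h.split T
    (fun a b => comm_mem_muFixer _ a b) hdet
  have hA : ∀ a : k, R σ₀ ≠ a • 1 := fun a ha => hdist (by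
    rw [ha, Matrix.trace_smul, Matrix.trace_one, Matrix.det_smul, Matrix.det_one, Fintype.card_fin,
      smul_eq_mul]
    push_cast
    ring)
  obtain ⟨w, ⟨τ', ⟨hτ'T, hτ'R⟩, rfl⟩, hw⟩ := exists_trace_ne_zero h.irreducible h2 W
    (fun g => by
      rintro _ ⟨τ, ⟨hτT, hτR⟩, rfl⟩
      exact ⟨g * τ * g⁻¹, ⟨(inferInstance : T.Normal).conj_mem τ hτT g, (hconj g τ hτR).1⟩,
        (hconj g τ hτR).2⟩)
    (by rintro _ ⟨τ, -, rfl⟩; exact hψ.trace_eq_zero τ)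
    ⟨ψ τ, ⟨τ, hτ, rfl⟩, hτ0⟩ hA
  by_cases hσ : (ψ σ₀ * R σ₀).trace = 0
  · refine ⟨σ₀ * τ', T.mul_mem hσ₀ hτ'T, ?_, ?_⟩
    · rw [map_mul, hτ'R, mul_one]; exact hdist
    · rw [hψ.map_mul, map_mul, hτ'R, mul_one, add_mul, Matrix.trace_add, hσ, zero_add,
        adAct_mul_comm, hdet σ₀ hσ₀, one_smul, Matrix.trace_mul_comm]
      exact hw
  · exact ⟨σ₀, hσ₀, hdist, hσ⟩

/-- A prime whose Frobenius elements agree, up to conjugacy, with a given element on a field. -/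
theorem exists_prime_conj (F : IntermediateField ℚ (AlgebraicClosure ℚ)) [FiniteDimensional ℚ F]
    (g : Γℚ) (bad : Finset ℕ) :
    ∃ q : ℕ, q.Prime ∧ q ∉ bad ∧ ∀ A : ValuationSubring (AlgebraicClosure ℚ), A.LiesOverPrime q →
      ∀ φ : Γℚ, A.IsFrobeniusAt φ q →
        ∃ τ f : Γℚ, (∀ x ∈ F, f x = x) ∧ φ = τ * g * τ⁻¹ * f := by
  set N := IntermediateField.normalClosure ℚ F (AlgebraicClosure ℚ)
  have : NumberField N := { }
  have : Normal ℚ (AlgebraicClosure ℚ) := IsGalois.to_normal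
  have : Normal ℚ N := normalClosure.normal ℚ F (AlgebraicClosure ℚ)
  have : IsGalois ℚ N := ⟨⟩
  let C : Set (N ≃ₐ[ℚ] N) :=
    {x | ∃ τ : Γℚ, x = Density.resTo N (τ * g * τ⁻¹)}
  have hC : ∀ x ∈ C, ∀ y, y * x * y⁻¹ ∈ C := by
    rintro _ ⟨τ, rfl⟩ y
    obtain ⟨σ, rfl⟩ := Density.resTo_surjective N y
    exact ⟨σ * τ, by simp only [map_mul, map_inv, _root_.mul_inv_rev, mul_assoc]⟩
  have hC0 : (0 : ℝ) < Nat.card C := by
    haveI : Nonempty C := ⟨⟨_, 1, rfl⟩⟩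
    exact_mod_cast Nat.card_pos
  set G := Nat.card (N ≃ₐ[ℚ] N)
  have hG : (0 : ℝ) < G := by exact_mod_cast Nat.card_pos
  set c := (Nat.card C : ℝ) / G
  have hc : 0 < c := div_pos hC0 hG
  obtain ⟨s, hs1, hs2⟩ := ((Density.chebotarev (F := N) bad hC (half_pos hc)).and
    (Density.tendsto_log_inv_sub_one.eventually_gt_atTop 0)).exists
  have hne : (Density.frobInSet (Density.resTo N ⁻¹' C) \ ↑bad).Nonempty := by
    by_contra hempty
    rw [Set.not_nonempty_iff_eq_empty] at hempty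
    rw [hempty, show Density.natSum ∅ s = 0 by simp [Density.natSum], zero_sub, abs_neg] at hs1
    have := (le_abs_self _).trans hs1
    nlinarith [mul_pos hc hs2]
  obtain ⟨q, ⟨hq, hfr⟩, hbad⟩ := hne
  refine ⟨q, hq, by simpa using hbad, fun A hA φ hφ => ?_⟩
  obtain ⟨τ, hτ⟩ := hfr A hA φ hφ
  refine ⟨τ, (τ * g * τ⁻¹)⁻¹ * φ, fun x hx => ?_, (mul_inv_cancel_left _ _).symm⟩
  have e : Density.resTo N ((τ * g * τ⁻¹)⁻¹ * φ) = 1 := by rw [map_mul, map_inv, hτ, inv_mul_cancel]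
  have := Density.resTo_apply N ((τ * g * τ⁻¹)⁻¹ * φ) ⟨x, F.le_normalClosure hx⟩
  rw [e] at this
  exact this.symm

/-- A prime whose Frobenius elements share the properties of a given element. -/
theorem exists_prime_of_element {R : Γℚ →* Matrix (Fin 2) (Fin 2) k} (h : TWHyp p R)
    (L : IntermediateField ℚ (AlgebraicClosure ℚ)) (hL : FiniteDimensional ℚ L) (n : ℕ)
    {g : Γℚ} (hg : g ∈ muFixer (p ^ (n + 1))) (hdist : (R g).trace ^ 2 ≠ 4 * (R g).det)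
    (bad : Finset ℕ) :
    ∃ q : ℕ, q.Prime ∧ q ∉ bad ∧ p ^ (n + 1) ∣ q - 1 ∧
      ∀ A : ValuationSubring (AlgebraicClosure ℚ), A.LiesOverPrime q →
        ∀ φ : Γℚ, A.IsFrobeniusAt φ q →
          φ ∈ muFixer (p ^ (n + 1)) ∧
          (∃ α β : k, α ≠ β ∧ (R φ).charpoly = (X - C α) * (X - C β)) ∧
          ∃ τ f : Γℚ, (∀ x ∈ L, f x = x) ∧ R f = 1 ∧ φ = τ * g * τ⁻¹ * f := by
  have hp : p.Prime := Fact.out
  haveI : NeZero (p ^ (n + 1)) := ⟨pow_ne_zero _ hp.ne_zero⟩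
  obtain ⟨L₁, hL₁, hR₁⟩ := h.finite_level
  obtain ⟨ζ, hζ⟩ := HasEnoughRootsOfUnity.exists_primitiveRoot (AlgebraicClosure ℚ) (p ^ (n + 1))
  haveI : FiniteDimensional ℚ (IntermediateField.adjoin ℚ {ζ}) :=
    IntermediateField.adjoin.finiteDimensional (Algebra.IsIntegral.isIntegral ζ)
  set F := L ⊔ L₁ ⊔ IntermediateField.adjoin ℚ {ζ}
  obtain ⟨q, hq, hbad, hfr⟩ := exists_prime_conj F g (insert p bad)
  rw [Finset.mem_insert, not_or] at hbad
  have key : ∀ A : ValuationSubring (AlgebraicClosure ℚ), A.LiesOverPrime q →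
      ∀ φ : Γℚ, A.IsFrobeniusAt φ q →
        φ ∈ muFixer (p ^ (n + 1)) ∧ φ ζ = ζ ∧
        (∃ α β : k, α ≠ β ∧ (R φ).charpoly = (X - C α) * (X - C β)) ∧
        ∃ τ f : Γℚ, (∀ x ∈ L, f x = x) ∧ R f = 1 ∧ φ = τ * g * τ⁻¹ * f := by
    intro A hA φ hφ
    obtain ⟨τ, f, hf, rfl⟩ := hfr A hA φ hφ
    have hfL : ∀ x ∈ L, f x = x := fun x hx =>
      hf x ((le_sup_left.trans le_sup_left : L ≤ F) hx)
    have hfR : R f = 1 := hR₁ f fun x hx => hf x ((le_sup_right.trans le_sup_left : L₁ ≤ F) hx)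
    have hfT : f ∈ muFixer (p ^ (n + 1)) := fun μ hμ => by
      obtain ⟨i, -, rfl⟩ := hζ.eq_pow_of_pow_eq_one hμ
      rw [map_pow, hf ζ ((le_sup_right : _ ≤ F) (IntermediateField.mem_adjoin_simple_self ℚ ζ))]
    have hmem : τ * g * τ⁻¹ * f ∈ muFixer (p ^ (n + 1)) :=
      (muFixer _).mul_mem ((muFixer_normal _).conj_mem g hg τ) hfT
    refine ⟨hmem, hmem ζ hζ.pow_eq_one, ?_, τ, f, hfL, hfR, rfl⟩
    obtain ⟨α, β, hαβ⟩ := h.split g
    refine ⟨α, β, fun e => hdist ((trace_sq_eq_iff hαβ).mpr e), ?_⟩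
    rw [← hαβ, map_mul, hfR, mul_one, map_mul, Matrix.charpoly_mul_comm, map_mul, ← mul_assoc,
      rep_inv_mul, one_mul]
  refine ⟨q, hq, hbad.2, ?_, fun A hA φ hφ => ?_⟩
  · obtain ⟨A, hA⟩ := Galois.exists_liesOverPrime hq
    obtain ⟨φ, hφ⟩ := Galois.exists_isFrobeniusAt hq hA
    have h1 := GalRep.cyc_spec p φ (k := n + 1) ζ hζ.pow_eq_one
    rw [GalRep.cyc_frobenius p hq hbad.1 hA hφ, map_natCast, ZMod.val_natCast,
      (key A hA φ hφ).2.1] at h1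
    nth_rewrite 1 [← pow_one ζ] at h1
    have e : q % p ^ (n + 1) = 1 := (hζ.pow_inj (Nat.mod_lt _ (NeZero.pos _))
      (Nat.one_lt_pow (Nat.succ_ne_zero n) hp.one_lt) h1.symm)
    have := Nat.div_add_mod q (p ^ (n + 1))
    exact ⟨q / p ^ (n + 1), by omega⟩
  · obtain ⟨a, -, b, c⟩ := key A hA φ hφ
    exact ⟨a, b, c⟩

/-- Infinitely many primes whose Frobenius elements do so. -/
theorem exists_twPrime {R : Γℚ →* Matrix (Fin 2) (Fin 2) k} (h : TWHyp p R)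
    {ψ : Γℚ → Matrix (Fin 2) (Fin 2) k} (hψ : IsTwCocycle R ψ)
    (hfin : ∃ L : IntermediateField ℚ (AlgebraicClosure ℚ), FiniteDimensional ℚ L ∧
      ∀ σ : Γℚ, (∀ x ∈ L, σ x = x) → ψ σ = 0)
    (hne : ¬ IsTwCoboundary R ψ) (n : ℕ) (bad : Finset ℕ) :
    ∃ q : ℕ, q.Prime ∧ q ∉ bad ∧ p ^ (n + 1) ∣ q - 1 ∧
      ∀ A : ValuationSubring (AlgebraicClosure ℚ), A.LiesOverPrime q →
        ∀ φ : Γℚ, A.IsFrobeniusAt φ q →
          (∀ μ : AlgebraicClosure ℚ, μ ^ p ^ (n + 1) = 1 → φ μ = μ) ∧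
          (∃ α β : k, α ≠ β ∧ (R φ).charpoly = (X - C α) * (X - C β)) ∧
          ∀ m : Matrix (Fin 2) (Fin 2) k, ψ φ ≠ adAct R φ m - m := by
  obtain ⟨g, hg, hdist, htr⟩ := exists_twElement p h hψ hne n
  obtain ⟨L, hL, hψL⟩ := hfin
  obtain ⟨q, hq, hbad, hdvd, hfr⟩ := exists_prime_of_element p h L hL n (g := g) hg hdist bad
  refine ⟨q, hq, hbad, hdvd, fun A hA φ hφ => ?_⟩
  obtain ⟨hφT, hφd, τ, f, hfL, hfR, hφe⟩ := hfr A hA φ hφ
  refine ⟨hφT, hφd, ne_adAct_sub (det_eq_one_of_mem_muFixer h hφT) ?_⟩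
  set σ' := τ * g * τ⁻¹
  have hRφ : R φ = R σ' := by rw [hφe, map_mul, hfR, mul_one]
  have hψφ : ψ φ = ψ σ' := by
    rw [hφe, hψ.map_mul, hψL f hfL, adAct_zero, add_zero]
  have hdet' : (R σ').det = 1 := det_eq_one_of_mem_muFixer h
    (show σ' ∈ muFixer (p ^ (n + 1)) from (muFixer_normal _).conj_mem g hg τ)
  have e : ψ σ' = adAct R τ (ψ g) - (adAct R σ' (ψ τ) - ψ τ) := by
    have h1 := hψ.map_mul σ' τ
    rw [show σ' * τ = τ * g from inv_mul_cancel_right _ _, hψ.map_mul τ g] at h1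
    linear_combination (norm := abel) -h1
  rw [hψφ, hRφ, e, sub_mul, Matrix.trace_sub, trace_adAct_sub_mul R hdet', sub_zero]
  simp only [σ', map_mul, adAct, Matrix.smul_mul, Matrix.trace_smul, smul_eq_mul]
  rw [show R τ * ψ g * R τ⁻¹ * (R τ * R g * R τ⁻¹) = R τ * (ψ g * R g) * R τ⁻¹ by
      simp only [mul_assoc]; rw [← mul_assoc (R τ⁻¹) (R τ), rep_inv_mul, one_mul],
    Matrix.trace_mul_cycle, rep_inv_mul, one_mul]
  exact mul_ne_zero (det_rep_ne_zero R τ) htr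

/-- The same without a class: primes with distinct Frobenius eigenvalues. -/
theorem exists_twPrime_distinct {R : Γℚ →* Matrix (Fin 2) (Fin 2) k} (h : TWHyp p R) (n : ℕ)
    (bad : Finset ℕ) :
    ∃ q : ℕ, q.Prime ∧ q ∉ bad ∧ p ^ (n + 1) ∣ q - 1 ∧
      ∀ A : ValuationSubring (AlgebraicClosure ℚ), A.LiesOverPrime q →
        ∀ φ : Γℚ, A.IsFrobeniusAt φ q →
          ∃ α β : k, α ≠ β ∧ (R φ).charpoly = (X - C α) * (X - C β) := by
  haveI : NeZero (p ^ (n + 1)) := ⟨pow_ne_zero _ (Fact.out : p.Prime).ne_zero⟩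
  obtain ⟨g, hg, hdist⟩ := exists_distinct h.irreducible (two_ne_zero_of_twHyp h) h.split
    (muFixer (p ^ (n + 1))) (fun a b => comm_mem_muFixer _ a b)
    (fun σ hσ => det_eq_one_of_mem_muFixer h hσ)
  obtain ⟨q, hq, hbad, hdvd, hfr⟩ := exists_prime_of_element p h ⊥ inferInstance n hg hdist bad
  exact ⟨q, hq, hbad, hdvd, fun A hA φ hφ => (hfr A hA φ hφ).2.1⟩

end Fermat.Agent.TW
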